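import Fermat.Agent.S41.D.Basic

/-!
# S41, module D, file Index: `Γ₀(N q) \ Γ₀(N) = ℙ¹(𝔽_q)`; existence of Atkin-Lehner data
-/

set_option autoImplicit false

open CongruenceSubgroup Matrix.SpecialLinearGroup
open scoped MatrixGroups
open Fermat.Agent.GR.B

namespace Fermat.Agent.S41

open Classical in
/-- the point `(c : d) ↦ d / c` of `ℙ¹(𝔽_q)` defined by the bottom row. -/
noncomputable def botPt (q : ℕ) (g : SL(2, ℤ)) : OnePoint (ZMod q) :=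
  if ((g 1 0 : ℤ) : ZMod q) = 0 then OnePoint.infty
  else ((((g 1 1 : ℤ) : ZMod q) * (((g 1 0 : ℤ) : ZMod q))⁻¹ : ZMod q) : OnePoint (ZMod q))

variable {N q : ℕ}

theorem Index_det (g : SL(2, ℤ)) : g 0 0 * g 1 1 - g 0 1 * g 1 0 = 1 := by
  have := g.det_coe
  rwa [Matrix.det_fin_two] at this

theorem Index_mul_inv_10 (g g' : SL(2, ℤ)) :
    (g * g'⁻¹) 1 0 = g 1 0 * g' 1 1 - g 1 1 * g' 1 0 := by
  rw [sl2_mul_apply, Matrix.SpecialLinearGroup.SL2_inv_expl]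
  simp
  ring

theorem Index_bot_ne_zero [Fact q.Prime] (g : SL(2, ℤ)) (h : ((g 1 0 : ℤ) : ZMod q) = 0) :
    ((g 1 1 : ℤ) : ZMod q) ≠ 0 := by
  intro h'
  have := congrArg (Int.cast : ℤ → ZMod q) (Index_det g)
  push_cast at this
  rw [h, h'] at this
  simp at this

theorem Index_botPt_eq_iff [Fact q.Prime] (g g' : SL(2, ℤ)) :
    botPt q g = botPt q g' ↔ (q : ℤ) ∣ g 1 0 * g' 1 1 - g 1 1 * g' 1 0 := by
  rw [← ZMod.intCast_zmod_eq_zero_iff_dvd]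
  push_cast
  unfold botPt
  by_cases h : ((g 1 0 : ℤ) : ZMod q) = 0 <;> by_cases h' : ((g' 1 0 : ℤ) : ZMod q) = 0
  · simp [h, h']
  · simp [h, h', Index_bot_ne_zero g h]
  · simp [h, h', Index_bot_ne_zero g' h']
  · rw [if_neg h, if_neg h', OnePoint.coe_eq_coe]
    constructor
    · intro e
      field_simp at e
      linear_combination -e
    · intro e
      field_simp
      linear_combination -e

theorem Index_coprime [Fact q.Prime] (hqN : ¬ q ∣ N) : IsCoprime (N : ℤ) (q : ℤ) := by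
  rw [Nat.isCoprime_iff_coprime]
  exact (((Nat.Prime.coprime_iff_not_dvd (Fact.out : q.Prime)).2 hqN)).symm

theorem botPt_eq_iff [Fact q.Prime] (hqN : ¬ q ∣ N) (r r' : Gamma0 N) :
    botPt q (r : SL(2, ℤ)) = botPt q (r' : SL(2, ℤ)) ↔
      ((r * r'⁻¹ : Gamma0 N) : SL(2, ℤ)) ∈ Gamma0 (N * q) := by
  rw [Index_botPt_eq_iff, Gamma0_mem, ZMod.intCast_zmod_eq_zero_iff_dvd, Subgroup.coe_mul,
    Subgroup.coe_inv, Index_mul_inv_10]
  push_cast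
  constructor
  · intro h
    refine (Index_coprime hqN).mul_dvd ?_ h
    exact dvd_sub (Dvd.dvd.mul_right (dvd_of_mem_Gamma0 r) _)
      (Dvd.dvd.mul_left (dvd_of_mem_Gamma0 r') _)
  · intro h
    exact dvd_trans (Dvd.intro_left _ rfl) h

theorem Index_exists_bezout [Fact q.Prime] (hqN : ¬ q ∣ N) :
    ∃ x y : ℤ, (q : ℤ) * x - N * y = 1 := by
  obtain ⟨a, b, hab⟩ := Index_coprime hqN
  exact ⟨b, -a, by linear_combination hab⟩

theorem botPt_surjective [Fact q.Prime] (hqN : ¬ q ∣ N) (x : OnePoint (ZMod q)) :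
    ∃ r : Gamma0 N, botPt q (r : SL(2, ℤ)) = x := by
  induction x using OnePoint.rec with
  | infty =>
    refine ⟨1, ?_⟩
    simp [botPt]
  | coe j =>
    obtain ⟨x₀, y₀, hxy⟩ := Index_exists_bezout hqN
    let g : SL(2, ℤ) := ⟨!![x₀, x₀ * (j.val : ℤ) + y₀; (N : ℤ), N * (j.val : ℤ) + q], by
      rw [Matrix.det_fin_two_of]
      linear_combination hxy⟩
    have h10 : g 1 0 = (N : ℤ) := rfl
    have h11 : g 1 1 = N * (j.val : ℤ) + q := rfl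
    have hN : ((N : ℕ) : ZMod q) ≠ 0 := by
      rw [Ne, ZMod.natCast_eq_zero_iff]
      exact hqN
    refine ⟨⟨g, mem_Gamma0_of_dvd (by rw [h10])⟩, ?_⟩
    show botPt q g = _
    unfold botPt
    rw [h10, h11]
    push_cast
    rw [if_neg hN, OnePoint.coe_eq_coe]
    simp
    field_simp

/-- the bijection `Γ₀(N) / Γ₀(N q) ≃ ℙ¹(𝔽_q)`, `x ↦ botPt (x.out)⁻¹`. -/
theorem botPt_out_bijective [Fact q.Prime] (hqN : ¬ q ∣ N) :
    Function.Bijective (fun x : Gamma0 N ⧸ (Gamma0 (N * q)).subgroupOf (Gamma0 N) =>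
      botPt q ((x.out⁻¹ : Gamma0 N) : SL(2, ℤ))) := by
  constructor
  · intro x y hxy
    have h1 := (botPt_eq_iff hqN _ _).mp hxy
    rw [inv_inv] at h1
    rw [← QuotientGroup.out_eq' x, ← QuotientGroup.out_eq' y, QuotientGroup.eq]
    exact h1
  · intro pt
    obtain ⟨r, hr⟩ := botPt_surjective hqN pt
    refine ⟨(r⁻¹ : Gamma0 N), ?_⟩
    show botPt q _ = pt
    rw [← hr, botPt_eq_iff hqN]
    have h1 : (((r⁻¹ : Gamma0 N) : Gamma0 N ⧸ (Gamma0 (N * q)).subgroupOf (Gamma0 N)).out :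
        Gamma0 N ⧸ (Gamma0 (N * q)).subgroupOf (Gamma0 N)) = ((r⁻¹ : Gamma0 N) : _) :=
      QuotientGroup.out_eq' _
    have h2 := QuotientGroup.eq.mp h1
    exact Subgroup.mem_subgroupOf.mp h2

theorem card_quotient [Fact q.Prime] (hqN : ¬ q ∣ N) :
    Nat.card (Gamma0 N ⧸ (Gamma0 (N * q)).subgroupOf (Gamma0 N)) = q + 1 := by
  rw [Nat.card_congr (Equiv.ofBijective _ (botPt_out_bijective hqN))]
  show Nat.card (Option (ZMod q)) = q + 1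
  rw [Finite.card_option, Nat.card_zmod]

theorem Index_exists_mulEquiv {Γ : Subgroup SL(2, ℤ)} (w : GL (Fin 2) ℝ)
    (h1 : ∀ γ : Γ, ∃ γ' : Γ, w * mapGL ℝ (γ : SL(2, ℤ)) = mapGL ℝ (γ' : SL(2, ℤ)) * w)
    (h2 : ∀ γ : Γ, ∃ γ' : Γ, w * mapGL ℝ (γ' : SL(2, ℤ)) = mapGL ℝ (γ : SL(2, ℤ)) * w) :
    ∃ c : Γ ≃* Γ, ∀ γ : Γ, w * mapGL ℝ (γ : SL(2, ℤ)) = mapGL ℝ (c γ : SL(2, ℤ)) * w := by
  choose f hf using h1
  have huniq : ∀ γ γ' : Γ,
      mapGL ℝ (γ : SL(2, ℤ)) * w = mapGL ℝ (γ' : SL(2, ℤ)) * w → γ = γ' := by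
    intro γ γ' h
    exact Subtype.ext (mapGL_injective (mul_right_cancel h))
  have hmul : ∀ γ γ', f (γ * γ') = f γ * f γ' := by
    intro γ γ'
    apply huniq
    rw [← hf, Subgroup.coe_mul, Subgroup.coe_mul, map_mul, map_mul, ← mul_assoc, hf, mul_assoc,
      hf, mul_assoc]
  have hinj : Function.Injective f := by
    intro γ γ' h
    have := hf γ
    rw [h, ← hf γ'] at this
    exact Subtype.ext (mapGL_injective (mul_left_cancel this))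
  have hsurj : Function.Surjective f := by
    intro γ
    obtain ⟨γ', h⟩ := h2 γ
    exact ⟨γ', huniq _ _ (by rw [← hf, h])⟩
  exact ⟨MulEquiv.ofBijective (MonoidHom.mk' f hmul) ⟨hinj, hsurj⟩, hf⟩

/-- `W γ adj(W) / q` for `W = (q x, y; N q z, q t)`, `γ = (a, b; N q c₀, d)`. -/
def Index_M (N q x y z t a b c₀ d : ℤ) : Matrix (Fin 2) (Fin 2) ℤ :=
  !![(q * x * a + y * (N * q * c₀)) * t - N * z * (q * x * b + y * d),
     -(x * y * a) - y ^ 2 * (N * c₀) + q * x ^ 2 * b + x * y * d;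
     N * q * (z * t * a + t ^ 2 * q * c₀ - N * z ^ 2 * b - z * t * d),
     -(N * z * y * a) - t * y * (N * q * c₀) + N * q * z * x * b + q * t * x * d]

theorem Index_M_det (N q x y z t a b c₀ d : ℤ) (hD : q * x * t - N * y * z = 1)
    (hdet : a * d - b * (N * q * c₀) = 1) : (Index_M N q x y z t a b c₀ d).det = 1 := by
  rw [Index_M, Matrix.det_fin_two_of]
  linear_combination ((q * x * t - N * y * z) ^ 2) * hdet + (q * x * t - N * y * z + 1) * hD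

theorem Index_exists_conj (x y : ℤ) (hxy : (q : ℤ) * x - N * y = 1) (w : GL (Fin 2) ℝ)
    (hw : (w : Matrix (Fin 2) (Fin 2) ℝ) = !![(q : ℝ) * x, (y : ℝ); (N : ℝ) * q, (q : ℝ)])
    (γ : Gamma0 (N * q)) :
    ∃ γ' : Gamma0 (N * q), w * mapGL ℝ (γ : SL(2, ℤ)) = mapGL ℝ (γ' : SL(2, ℤ)) * w := by
  obtain ⟨c₀, hc₀⟩ := dvd_of_mem_Gamma0 γ
  push_cast at hc₀
  have hdet := Index_det (γ : SL(2, ℤ))
  rw [hc₀] at hdet
  let g : SL(2, ℤ) := ⟨Index_M N q x y 1 1 ((γ : SL(2, ℤ)) 0 0) ((γ : SL(2, ℤ)) 0 1) c₀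
    ((γ : SL(2, ℤ)) 1 1), Index_M_det _ _ _ _ _ _ _ _ _ _ (by linear_combination hxy) hdet⟩
  have hg : g ∈ Gamma0 (N * q) := by
    apply mem_Gamma0_of_dvd
    push_cast
    exact Dvd.intro _ rfl
  have hxy' : (q : ℝ) * x - N * y = 1 := by exact_mod_cast hxy
  have hc₀' : (((γ : SL(2, ℤ)) 1 0 : ℤ) : ℝ) = N * q * c₀ := by exact_mod_cast hc₀
  refine ⟨⟨g, hg⟩, ?_⟩
  apply Matrix.GeneralLinearGroup.ext
  intro i j
  rw [Matrix.GeneralLinearGroup.coe_mul, Matrix.GeneralLinearGroup.coe_mul, hw,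
    mapGL_coe_matrix, mapGL_coe_matrix, Matrix.mul_apply, Matrix.mul_apply, Fin.sum_univ_two,
    Fin.sum_univ_two]
  fin_cases i <;> fin_cases j
  · simp [g, Index_M, hc₀']
    linear_combination (-((q : ℝ) * x * ((γ : SL(2, ℤ)) 0 0 : ℤ) + y * (N * q * c₀))) * hxy'
  · simp [g, Index_M]
    linear_combination
      (-((q : ℝ) * x * ((γ : SL(2, ℤ)) 0 1 : ℤ) + y * ((γ : SL(2, ℤ)) 1 1 : ℤ))) * hxy'
  · simp [g, Index_M, hc₀']
    linear_combination (-((N : ℝ) * q * ((γ : SL(2, ℤ)) 0 0 : ℤ) + q * (N * q * c₀))) * hxy'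
  · simp [g, Index_M]
    linear_combination
      (-((N : ℝ) * q * ((γ : SL(2, ℤ)) 0 1 : ℤ) + q * ((γ : SL(2, ℤ)) 1 1 : ℤ))) * hxy'

theorem Index_exists_conj' (x y : ℤ) (hxy : (q : ℤ) * x - N * y = 1) (w : GL (Fin 2) ℝ)
    (hw : (w : Matrix (Fin 2) (Fin 2) ℝ) = !![(q : ℝ) * x, (y : ℝ); (N : ℝ) * q, (q : ℝ)])
    (γ : Gamma0 (N * q)) :
    ∃ γ' : Gamma0 (N * q), w * mapGL ℝ (γ' : SL(2, ℤ)) = mapGL ℝ (γ : SL(2, ℤ)) * w := by
  obtain ⟨c₀, hc₀⟩ := dvd_of_mem_Gamma0 γ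
  push_cast at hc₀
  have hdet := Index_det (γ : SL(2, ℤ))
  rw [hc₀] at hdet
  let g : SL(2, ℤ) := ⟨Index_M N q 1 (-y) (-1) x ((γ : SL(2, ℤ)) 0 0) ((γ : SL(2, ℤ)) 0 1) c₀
    ((γ : SL(2, ℤ)) 1 1), Index_M_det _ _ _ _ _ _ _ _ _ _ (by linear_combination hxy) hdet⟩
  have hg : g ∈ Gamma0 (N * q) := by
    apply mem_Gamma0_of_dvd
    push_cast
    exact Dvd.intro _ rfl
  have hxy' : (q : ℝ) * x - N * y = 1 := by exact_mod_cast hxy
  have hc₀' : (((γ : SL(2, ℤ)) 1 0 : ℤ) : ℝ) = N * q * c₀ := by exact_mod_cast hc₀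
  refine ⟨⟨g, hg⟩, ?_⟩
  apply Matrix.GeneralLinearGroup.ext
  intro i j
  rw [Matrix.GeneralLinearGroup.coe_mul, Matrix.GeneralLinearGroup.coe_mul, hw,
    mapGL_coe_matrix, mapGL_coe_matrix, Matrix.mul_apply, Matrix.mul_apply, Fin.sum_univ_two,
    Fin.sum_univ_two]
  fin_cases i <;> fin_cases j
  · simp [g, Index_M]
    linear_combination
      ((((γ : SL(2, ℤ)) 0 0 : ℤ) : ℝ) * (q * x) + ((γ : SL(2, ℤ)) 0 1 : ℤ) * (N * q)) * hxy'
  · simp [g, Index_M]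
    linear_combination
      ((((γ : SL(2, ℤ)) 0 0 : ℤ) : ℝ) * y + ((γ : SL(2, ℤ)) 0 1 : ℤ) * q) * hxy'
  · simp [g, Index_M, hc₀']
    linear_combination
      (((N : ℝ) * q * c₀) * (q * x) + ((γ : SL(2, ℤ)) 1 1 : ℤ) * (N * q)) * hxy'
  · simp [g, Index_M, hc₀']
    linear_combination
      (((N : ℝ) * q * c₀) * y + ((γ : SL(2, ℤ)) 1 1 : ℤ) * q) * hxy'

/-- existence of Atkin-Lehner data. -/
theorem nonempty_AL [Fact q.Prime] (hqN : ¬ q ∣ N) : Nonempty (AL N q) := by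
  obtain ⟨x, y, hxy⟩ := Index_exists_bezout hqN
  have hq : (0 : ℝ) < q := by exact_mod_cast (Fact.out : q.Prime).pos
  have hxy' : (q : ℝ) * x - N * y = 1 := by exact_mod_cast hxy
  have hdet : (!![(q : ℝ) * x, (y : ℝ); (N : ℝ) * q, (q : ℝ)]).det = q := by
    rw [Matrix.det_fin_two_of]
    linear_combination (q : ℝ) * hxy'
  let w : GL (Fin 2) ℝ := Matrix.GeneralLinearGroup.mkOfDetNeZero
    !![(q : ℝ) * x, (y : ℝ); (N : ℝ) * q, (q : ℝ)] (by rw [hdet]; exact hq.ne')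
  have hw : (w : Matrix (Fin 2) (Fin 2) ℝ) = !![(q : ℝ) * x, (y : ℝ); (N : ℝ) * q, (q : ℝ)] := rfl
  obtain ⟨c, hc⟩ := Index_exists_mulEquiv w (Index_exists_conj x y hxy w hw)
    (Index_exists_conj' x y hxy w hw)
  refine ⟨⟨x, y, hxy, w, hw, ?_, c, hc⟩⟩
  rw [Matrix.GeneralLinearGroup.val_det_apply, hw, hdet]
  exact hq

end Fermat.Agent.S41
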