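import Fermat.Agent.S41.D.Tools

/-!
# S41, module D, file D1: `a^*` and `b^*` commute with `T_r`, `r ∤ N q`
-/

set_option autoImplicit false

open CongruenceSubgroup Matrix.SpecialLinearGroup
open scoped MatrixGroups
open Fermat.Agent.GR.B

namespace Fermat.Agent.S41

variable {N q : ℕ} {A : Type*} [AddCommGroup A]

open P2MW.S_ModularForm_heckeT_slash_eq_self_of_mem_Gamma0.ModularForm.HeckeSlashInvariance in
theorem D1_coc_incl (r : ℕ) [Fact r.Prime] (hrN : ¬ r ∣ N) (hrNq : ¬ r ∣ N * q)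
    (γ : Gamma0 (N * q)) (x : OnePoint (ZMod r)) :
    (repsT r hrN).coc (inclQ N q γ) x = inclQ N q ((repsT r hrNq).coc γ x) := by
  have h1 := (repsT r hrN).rel (inclQ N q γ) x
  have h2 := (repsT r hrNq).rel γ x
  have h3 : mapGL ℝ (((repsT r hrN).coc (inclQ N q γ) x : Gamma0 N) : SL(2, ℤ)) =
      mapGL ℝ ((inclQ N q ((repsT r hrNq).coc γ x) : Gamma0 N) : SL(2, ℤ)) := by
    apply mul_right_cancel (b := heckeRep r (redMatrix r (γ : SL(2, ℤ)) • x))
    exact h1.symm.trans h2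
  exact Subtype.ext (mapGL_injective h3)

theorem aUp_T (r : ℕ) [Fact r.Prime] (hrN : ¬ r ∣ N) (hrNq : ¬ r ∣ N * q)
    (φ : Additive (Gamma0 N) →+ A) :
    (aUpC N q).op A ((repsT r hrN).op A φ) = (repsT r hrNq).op A ((aUpC N q).op A φ) := by
  refine AddMonoidHom.ext fun γ => ?_
  induction γ using Additive.rec with
  | ofMul γ =>
    rw [aUpC_op_apply, Reps.op_apply, Reps.op_apply]
    refine Finset.sum_congr rfl fun x _ => ?_
    rw [aUpC_op_apply]
    exact congrArg (fun g => φ (Additive.ofMul g)) (D1_coc_incl r hrN hrNq γ x)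

/-- multiplication by `q` on `P¹(ℤ/r)`. -/
noncomputable def D1_mulQ (q r : ℕ) [Fact r.Prime] (hq : (q : ZMod r) ≠ 0) :
    OnePoint (ZMod r) ≃ OnePoint (ZMod r) :=
  Equiv.optionCongr (Equiv.mulLeft₀ (q : ZMod r) hq)

theorem D1_mulQ_infty (q r : ℕ) [Fact r.Prime] (hq : (q : ZMod r) ≠ 0) :
    D1_mulQ q r hq OnePoint.infty = OnePoint.infty := rfl

theorem D1_mulQ_coe (q r : ℕ) [Fact r.Prime] (hq : (q : ZMod r) ≠ 0) (j : ZMod r) :
    D1_mulQ q r hq (j : OnePoint (ZMod r)) = (((q : ZMod r) * j : ZMod r) : OnePoint (ZMod r)) := rfl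

theorem D1_reduced [NeZero q] (r : ℕ) [Fact r.Prime] (hrN : ¬ r ∣ N) :
    ((bUpC N q).comp (repsT r hrN).toCorr).Reduced := by
  intro i j g c hc h
  have h1 : i.2 = j.2 := by
    apply repsT_reduced r hrN i.2 j.2 g c hc
    apply (Units.mul_left_inj (ModularForm.heckeDiagMatrix q)).mp
    have h2 : (((bUpC N q).comp (repsT r hrN).toCorr).α i : Matrix (Fin 2) (Fin 2) ℝ) =
        ((repsT r hrN).toCorr.α i.2 : Matrix (Fin 2) (Fin 2) ℝ) *
          (ModularForm.heckeDiagMatrix q : Matrix (Fin 2) (Fin 2) ℝ) := rfl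
    have h3 : ((mapGL ℝ (g : SL(2, ℤ)) * ((bUpC N q).comp (repsT r hrN).toCorr).α j :
        GL (Fin 2) ℝ) : Matrix (Fin 2) (Fin 2) ℝ) =
        ((mapGL ℝ (g : SL(2, ℤ)) * (repsT r hrN).toCorr.α j.2 : GL (Fin 2) ℝ) :
          Matrix (Fin 2) (Fin 2) ℝ) *
          (ModularForm.heckeDiagMatrix q : Matrix (Fin 2) (Fin 2) ℝ) := by
      rw [← Matrix.GeneralLinearGroup.coe_mul, mul_assoc]
      rfl
    rw [← h2, h, h3, Matrix.smul_mul]
  exact Prod.ext (Subsingleton.elim (α := Unit) i.1 j.1) h1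

open P2MW.S_ModularForm_heckeT_slash_eq_self_of_mem_Gamma0.ModularForm.HeckeSlashInvariance in
theorem bUp_T [NeZero q] (r : ℕ) [Fact r.Prime] (hrN : ¬ r ∣ N) (hrNq : ¬ r ∣ N * q)
    (φ : Additive (Gamma0 N) →+ A) :
    (bUpC N q).op A ((repsT r hrN).op A φ) = (repsT r hrNq).op A ((bUpC N q).op A φ) := by
  rw [← Reps.toCorr_op, ← Corr.comp_op, ← Reps.toCorr_op (repsT r hrNq), ← Corr.comp_op]
  symm
  have hq : (q : ZMod r) ≠ 0 := by
    intro h
    exact hrNq (Dvd.dvd.mul_left ((ZMod.natCast_eq_zero_iff q r).mp h) N)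
  have hq0 : q ≠ 0 := NeZero.ne q
  have hr0 : r ≠ 0 := (Fact.out : r.Prime).ne_zero
  refine Corr.op_eq_of_equiv _ _ (D1_reduced r hrN)
    ((Equiv.prodComm _ _).trans (Equiv.prodCongr (Equiv.refl _) (D1_mulQ q r hq))) ?_ A φ
  rintro ⟨x, u⟩
  induction x using OnePoint.rec with
  | infty =>
    refine ⟨1, 1, one_pos, ?_⟩
    show ((ModularForm.heckeDiagMatrix q * ModularForm.heckeDiagMatrix r : GL (Fin 2) ℝ) :
      Matrix (Fin 2) (Fin 2) ℝ) = (1 : ℝ) • ((mapGL ℝ ((1 : Gamma0 N) : SL(2, ℤ)) *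
        (ModularForm.heckeDiagMatrix r * ModularForm.heckeDiagMatrix q) : GL (Fin 2) ℝ) :
      Matrix (Fin 2) (Fin 2) ℝ)
    rw [one_smul, OneMemClass.coe_one, map_one, one_mul, Matrix.GeneralLinearGroup.coe_mul,
      Matrix.GeneralLinearGroup.coe_mul, ModularForm.val_heckeDiagMatrix hq0,
      ModularForm.val_heckeDiagMatrix hr0]
    ext i j
    fin_cases i <;> fin_cases j <;> simp [Matrix.mul_apply, Fin.sum_univ_two, mul_comm]
  | coe j =>
    obtain ⟨t, ht⟩ : (r : ℤ) ∣ (q : ℤ) * (j.val : ℤ) - ((((q : ZMod r) * j : ZMod r).val : ℕ) : ℤ) := by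
      rw [← ZMod.intCast_zmod_eq_zero_iff_dvd]
      push_cast
      rw [ZMod.natCast_zmod_val, ZMod.natCast_zmod_val, sub_self]
    have hmem : ModularGroup.T ^ t ∈ Gamma0 N := by
      apply mem_Gamma0_of_dvd
      rw [ModularGroup.coe_T_zpow]
      simp
    refine ⟨⟨ModularGroup.T ^ t, hmem⟩, 1, one_pos, ?_⟩
    show ((ModularForm.heckeDiagMatrix q * ModularForm.heckeMatrix r j.val : GL (Fin 2) ℝ) :
      Matrix (Fin 2) (Fin 2) ℝ) = (1 : ℝ) • ((mapGL ℝ (ModularGroup.T ^ t : SL(2, ℤ)) *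
        (ModularForm.heckeMatrix r ((q : ZMod r) * j : ZMod r).val *
          ModularForm.heckeDiagMatrix q) : GL (Fin 2) ℝ) :
      Matrix (Fin 2) (Fin 2) ℝ)
    have ht' : (q : ℝ) * (j.val : ℝ) = (((q : ZMod r) * j : ZMod r).val : ℝ) + r * t := by
      have : (q : ℤ) * (j.val : ℤ) = ((((q : ZMod r) * j : ZMod r).val : ℕ) : ℤ) + r * t := by
        linarith
      exact_mod_cast this
    have hT : ((mapGL ℝ (ModularGroup.T ^ t : SL(2, ℤ)) : GL (Fin 2) ℝ) :
        Matrix (Fin 2) (Fin 2) ℝ) = !![(1 : ℝ), (t : ℝ); 0, 1] := by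
      rw [mapGL_coe_matrix, Matrix.SpecialLinearGroup.map_apply_coe, ModularGroup.coe_T_zpow]
      ext a b
      fin_cases a <;> fin_cases b <;> simp
    rw [one_smul, Matrix.GeneralLinearGroup.coe_mul, Matrix.GeneralLinearGroup.coe_mul,
      Matrix.GeneralLinearGroup.coe_mul, ModularForm.val_heckeDiagMatrix hq0,
      ModularForm.val_heckeMatrix hr0, ModularForm.val_heckeMatrix hr0, hT]
    generalize (j.val : ℕ) = m at ht'
    generalize (((q : ZMod r) * j : ZMod r).val : ℕ) = m' at ht'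
    ext a b
    fin_cases a <;> fin_cases b <;> simp [Matrix.mul_apply, Fin.sum_univ_two, ht']
    ring

end Fermat.Agent.S41
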