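import Fermat.Agent.S41.D.Tools
import Fermat.Agent.S41.D.Index

/-!
# S41, module D, file D2: `a_*` commutes with `T_r`, `r ∤ N q`
-/

set_option autoImplicit false

open CongruenceSubgroup Matrix.SpecialLinearGroup
open scoped MatrixGroups
open Fermat.Agent.GR.B
open P2MW.S_ModularForm_heckeT_slash_eq_self_of_mem_Gamma0.ModularForm.HeckeSlashInvariance

namespace Fermat.Agent.S41

variable {N q : ℕ} {A : Type*} [AddCommGroup A]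

theorem D2_mul_left {X Y : GL (Fin 2) ℝ} {c : ℝ} (Z : GL (Fin 2) ℝ)
    (h : (X : Matrix (Fin 2) (Fin 2) ℝ) = c • (Y : Matrix (Fin 2) (Fin 2) ℝ)) :
    ((Z * X : GL (Fin 2) ℝ) : Matrix (Fin 2) (Fin 2) ℝ) =
      c • ((Z * Y : GL (Fin 2) ℝ) : Matrix (Fin 2) (Fin 2) ℝ) := by
  rw [Matrix.GeneralLinearGroup.coe_mul, Matrix.GeneralLinearGroup.coe_mul, h, Matrix.mul_smul]

theorem D2_mul_right {X Y : GL (Fin 2) ℝ} {c : ℝ} (Z : GL (Fin 2) ℝ)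
    (h : (X : Matrix (Fin 2) (Fin 2) ℝ) = c • (Y : Matrix (Fin 2) (Fin 2) ℝ)) :
    ((X * Z : GL (Fin 2) ℝ) : Matrix (Fin 2) (Fin 2) ℝ) =
      c • ((Y * Z : GL (Fin 2) ℝ) : Matrix (Fin 2) (Fin 2) ℝ) := by
  rw [Matrix.GeneralLinearGroup.coe_mul, Matrix.GeneralLinearGroup.coe_mul, h, Matrix.smul_mul]

/-- `T` followed by the transfer is reduced. -/
theorem D2_reduced_comp_cores {Γ₁ Γ₂ : Subgroup SL(2, ℤ)} [(Γ₂.subgroupOf Γ₁).FiniteIndex]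
    (hle : Γ₂ ≤ Γ₁) (T : Corr Γ₁ Γ₁) (hT : T.Reduced) :
    (T.comp (coresCorr Γ₁ Γ₂)).Reduced := by
  rintro ⟨i, x⟩ ⟨j, y⟩ g c hc h
  have h' : ((mapGL ℝ ((x.out⁻¹ : Γ₁) : SL(2, ℤ)) * T.α i : GL (Fin 2) ℝ) :
      Matrix (Fin 2) (Fin 2) ℝ) = c • ((mapGL ℝ (g : SL(2, ℤ)) *
        (mapGL ℝ ((y.out⁻¹ : Γ₁) : SL(2, ℤ)) * T.α j) : GL (Fin 2) ℝ) :
          Matrix (Fin 2) (Fin 2) ℝ) := h
  have hij : i = j := by
    refine hT i j (x.out * ⟨g, hle g.2⟩ * y.out⁻¹) c hc ?_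
    have h1 := D2_mul_left (mapGL ℝ ((x.out : Γ₁) : SL(2, ℤ))) h'
    have e1 : mapGL ℝ ((x.out : Γ₁) : SL(2, ℤ)) * (mapGL ℝ ((x.out⁻¹ : Γ₁) : SL(2, ℤ)) * T.α i) =
        T.α i := by
      rw [← mul_assoc, ← map_mul, ← Subgroup.coe_mul, mul_inv_cancel]
      simp
    have e2 : mapGL ℝ ((x.out : Γ₁) : SL(2, ℤ)) * (mapGL ℝ (g : SL(2, ℤ)) *
        (mapGL ℝ ((y.out⁻¹ : Γ₁) : SL(2, ℤ)) * T.α j)) =
        mapGL ℝ ((x.out * ⟨g, hle g.2⟩ * y.out⁻¹ : Γ₁) : SL(2, ℤ)) * T.α j := by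
      rw [Subgroup.coe_mul, Subgroup.coe_mul, map_mul, map_mul]
      simp only [mul_assoc]
    rw [e1, e2] at h1
    exact h1
  subst hij
  have hxy : x = y := by
    refine coresCorr_reduced Γ₁ Γ₂ x y g c hc ?_
    have h1 := D2_mul_right (T.α i)⁻¹ h'
    have e1 : mapGL ℝ ((x.out⁻¹ : Γ₁) : SL(2, ℤ)) * T.α i * (T.α i)⁻¹ =
        mapGL ℝ ((x.out⁻¹ : Γ₁) : SL(2, ℤ)) := by
      rw [mul_assoc, mul_inv_cancel, mul_one]
    have e2 : mapGL ℝ (g : SL(2, ℤ)) * (mapGL ℝ ((y.out⁻¹ : Γ₁) : SL(2, ℤ)) * T.α i) * (T.α i)⁻¹ =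
        mapGL ℝ (g : SL(2, ℤ)) * mapGL ℝ ((y.out⁻¹ : Γ₁) : SL(2, ℤ)) := by
      rw [mul_assoc, mul_assoc, mul_inv_cancel, mul_one]
    rw [e1, e2] at h1
    exact h1
  rw [hxy]

/-- every element of `Γ₁` is `g (y.out)⁻¹` with `g ∈ Γ₂`. -/
theorem D2_exists_out {Γ₁ Γ₂ : Subgroup SL(2, ℤ)} (δ : Γ₁) :
    ∃ (y : Γ₁ ⧸ Γ₂.subgroupOf Γ₁) (g : Γ₂), (δ : SL(2, ℤ)) = (g : SL(2, ℤ)) * ((y.out⁻¹ : Γ₁) : SL(2, ℤ)) := by
  obtain ⟨k, hk⟩ := QuotientGroup.mk_out_eq_mul (Γ₂.subgroupOf Γ₁) δ⁻¹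
  refine ⟨(δ⁻¹ : Γ₁), ⟨((k : Γ₁) : SL(2, ℤ)), k.2⟩, ?_⟩
  rw [hk]
  simp

theorem D2_eq_of_out {Γ₁ Γ₂ : Subgroup SL(2, ℤ)} (x y : Γ₁ ⧸ Γ₂.subgroupOf Γ₁)
    (h : ((x.out⁻¹ * y.out : Γ₁) : SL(2, ℤ)) ∈ Γ₂) : x = y := by
  have h5 : (x.out⁻¹ * y.out : Γ₁) ∈ Γ₂.subgroupOf Γ₁ := Subgroup.mem_subgroupOf.2 h
  have h6 := QuotientGroup.eq.2 h5
  rwa [QuotientGroup.out_eq', QuotientGroup.out_eq'] at h6

/-- the shape of the standard representatives. -/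
theorem D2_heckeRep_form (r : ℕ) [NeZero r] (x : OnePoint (ZMod r)) :
    ∃ a b d : ℤ, a * d = r ∧
      ((heckeRep r x : GL (Fin 2) ℝ) : Matrix (Fin 2) (Fin 2) ℝ) =
        !![(a : ℝ), (b : ℝ); 0, (d : ℝ)] := by
  have hr : r ≠ 0 := NeZero.ne r
  induction x using OnePoint.rec with
  | infty =>
    refine ⟨r, 0, 1, by ring, ?_⟩
    show ((ModularForm.heckeDiagMatrix r : GL (Fin 2) ℝ) : Matrix (Fin 2) (Fin 2) ℝ) = _
    rw [ModularForm.val_heckeDiagMatrix hr]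
    simp
  | coe j =>
    refine ⟨1, j.val, r, by ring, ?_⟩
    show ((ModularForm.heckeMatrix r j.val : GL (Fin 2) ℝ) : Matrix (Fin 2) (Fin 2) ℝ) = _
    rw [ModularForm.val_heckeMatrix hr]
    simp

theorem D2_det_mapGL_mul (g : SL(2, ℤ)) (X : GL (Fin 2) ℝ) :
    ((mapGL ℝ g * X : GL (Fin 2) ℝ) : Matrix (Fin 2) (Fin 2) ℝ).det =
      (X : Matrix (Fin 2) (Fin 2) ℝ).det := by
  rw [← Matrix.GeneralLinearGroup.val_det_apply, ← Matrix.GeneralLinearGroup.val_det_apply, map_mul]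
  simp

theorem D2_det_mul_mapGL (g : SL(2, ℤ)) (X : GL (Fin 2) ℝ) :
    ((X * mapGL ℝ g : GL (Fin 2) ℝ) : Matrix (Fin 2) (Fin 2) ℝ).det =
      (X : Matrix (Fin 2) (Fin 2) ℝ).det := by
  rw [← Matrix.GeneralLinearGroup.val_det_apply, ← Matrix.GeneralLinearGroup.val_det_apply, map_mul]
  simp

/-- the key divisibility. -/
theorem D2_dvd_of_rel {q r : ℕ} [Fact q.Prime] [Fact r.Prime] (hqr : q ≠ r)
    (i j : OnePoint (ZMod r)) (γ g : SL(2, ℤ)) (hg : (q : ℤ) ∣ g 1 0) (c : ℝ) (hc : 0 < c)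
    (h : ((heckeRep r i * mapGL ℝ γ : GL (Fin 2) ℝ) : Matrix (Fin 2) (Fin 2) ℝ) =
      c • ((mapGL ℝ g * heckeRep r j : GL (Fin 2) ℝ) : Matrix (Fin 2) (Fin 2) ℝ)) :
    (q : ℤ) ∣ γ 1 0 := by
  have hr0 : r ≠ 0 := (Fact.out : r.Prime).ne_zero
  have : NeZero r := ⟨hr0⟩
  obtain ⟨a, b, d, had, hi⟩ := D2_heckeRep_form r i
  obtain ⟨a', b', d', had', hj⟩ := D2_heckeRep_form r j
  have hdi : ((heckeRep r i : GL (Fin 2) ℝ) : Matrix (Fin 2) (Fin 2) ℝ).det = r := by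
    rw [hi, Matrix.det_fin_two_of]
    have : ((a * d : ℤ) : ℝ) = ((r : ℤ) : ℝ) := by rw [had]
    push_cast at this
    linarith
  have hdj : ((heckeRep r j : GL (Fin 2) ℝ) : Matrix (Fin 2) (Fin 2) ℝ).det = r := by
    rw [hj, Matrix.det_fin_two_of]
    have : ((a' * d' : ℤ) : ℝ) = ((r : ℤ) : ℝ) := by rw [had']
    push_cast at this
    linarith
  have hc1 : c = 1 := by
    refine scalar_eq_one_of_det hc h ?_ ?_
    · rw [D2_det_mapGL_mul, D2_det_mul_mapGL, hdi, hdj]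
    · rw [D2_det_mapGL_mul, hdj]
      exact_mod_cast hr0
  rw [hc1, one_smul, Matrix.GeneralLinearGroup.coe_mul, Matrix.GeneralLinearGroup.coe_mul, hi, hj,
    mapGL_coe_matrix, mapGL_coe_matrix] at h
  have h10 := congrFun (congrFun h 1) 0
  rw [Matrix.mul_apply, Matrix.mul_apply, Fin.sum_univ_two, Fin.sum_univ_two] at h10
  simp at h10
  have h10' : d * γ 1 0 = g 1 0 * a' := by exact_mod_cast h10
  have hq : Prime (q : ℤ) := Nat.prime_iff_prime_int.1 (Fact.out : q.Prime)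
  have h1 : (q : ℤ) ∣ d * γ 1 0 := by
    rw [h10']
    exact Dvd.dvd.mul_right hg _
  rcases hq.dvd_or_dvd h1 with h2 | h2
  · exfalso
    have h3 : (q : ℤ) ∣ (r : ℤ) := by
      rw [← had]
      exact Dvd.dvd.mul_left h2 _
    have h4 : q ∣ r := by exact_mod_cast h3
    exact hqr ((Nat.prime_dvd_prime_iff_eq (Fact.out : q.Prime) (Fact.out : r.Prime)).1 h4)
  · exact h2

/-- the transfer followed by `T_r` at level `N q` is reduced. -/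
theorem D2_reduced_left [NeZero N] [Fact q.Prime] (hqN : ¬ q ∣ N) (r : ℕ) [Fact r.Prime]
    (hrNq : ¬ r ∣ N * q) : ((aDnC N q).comp (repsT r hrNq).toCorr).Reduced := by
  rintro ⟨x, i⟩ ⟨y, j⟩ g c hc h
  have h' : ((heckeRep r i * mapGL ℝ ((x.out⁻¹ : Gamma0 N) : SL(2, ℤ)) : GL (Fin 2) ℝ) :
      Matrix (Fin 2) (Fin 2) ℝ) = c • ((mapGL ℝ (g : SL(2, ℤ)) *
        (heckeRep r j * mapGL ℝ ((y.out⁻¹ : Gamma0 N) : SL(2, ℤ))) : GL (Fin 2) ℝ) :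
          Matrix (Fin 2) (Fin 2) ℝ) := h
  have hqr : q ≠ r := by
    rintro rfl
    exact hrNq (Dvd.intro_left N rfl)
  have hxy : x = y := by
    have h1 := D2_mul_right (mapGL ℝ ((y.out : Gamma0 N) : SL(2, ℤ))) h'
    have e1 : heckeRep r i * mapGL ℝ ((x.out⁻¹ : Gamma0 N) : SL(2, ℤ)) *
        mapGL ℝ ((y.out : Gamma0 N) : SL(2, ℤ)) =
        heckeRep r i * mapGL ℝ ((x.out⁻¹ * y.out : Gamma0 N) : SL(2, ℤ)) := by
      rw [Subgroup.coe_mul, map_mul, mul_assoc]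
    have e2 : mapGL ℝ (g : SL(2, ℤ)) *
        (heckeRep r j * mapGL ℝ ((y.out⁻¹ : Gamma0 N) : SL(2, ℤ))) *
        mapGL ℝ ((y.out : Gamma0 N) : SL(2, ℤ)) = mapGL ℝ (g : SL(2, ℤ)) * heckeRep r j := by
      rw [mul_assoc, mul_assoc, ← map_mul, ← Subgroup.coe_mul, inv_mul_cancel]
      simp
    rw [e1, e2] at h1
    have h2 := D2_dvd_of_rel hqr i j _ _ (dvd_of_mem_Gamma0_mul g) c hc h1
    have h3 : (N : ℤ) ∣ ((x.out⁻¹ * y.out : Gamma0 N) : SL(2, ℤ)) 1 0 := dvd_of_mem_Gamma0 _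
    have hcop : IsCoprime (N : ℤ) (q : ℤ) := by
      rw [Nat.isCoprime_iff_coprime]
      exact ((Nat.Prime.coprime_iff_not_dvd (Fact.out : q.Prime)).2 hqN).symm
    have h4 : ((N * q : ℕ) : ℤ) ∣ ((x.out⁻¹ * y.out : Gamma0 N) : SL(2, ℤ)) 1 0 := by
      push_cast
      exact hcop.mul_dvd h3 h2
    exact D2_eq_of_out x y (mem_Gamma0_of_dvd h4)
  subst hxy
  have hij : i = j := by
    refine repsT_reduced r hrNq i j g c hc ?_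
    have h1 := D2_mul_right (mapGL ℝ ((x.out : Gamma0 N) : SL(2, ℤ))) h'
    have e1 : heckeRep r i * mapGL ℝ ((x.out⁻¹ : Gamma0 N) : SL(2, ℤ)) *
        mapGL ℝ ((x.out : Gamma0 N) : SL(2, ℤ)) = heckeRep r i := by
      rw [mul_assoc, ← map_mul, ← Subgroup.coe_mul, inv_mul_cancel]
      simp
    have e2 : mapGL ℝ (g : SL(2, ℤ)) *
        (heckeRep r j * mapGL ℝ ((x.out⁻¹ : Gamma0 N) : SL(2, ℤ))) *
        mapGL ℝ ((x.out : Gamma0 N) : SL(2, ℤ)) = mapGL ℝ (g : SL(2, ℤ)) * heckeRep r j := by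
      rw [mul_assoc, mul_assoc, ← map_mul, ← Subgroup.coe_mul, inv_mul_cancel]
      simp
    rw [e1, e2] at h1
    exact h1
  rw [hij]

theorem aDn_T [NeZero N] [Fact q.Prime] (hqN : ¬ q ∣ N) (r : ℕ) [Fact r.Prime] (hrN : ¬ r ∣ N)
    (hrNq : ¬ r ∣ N * q) (ψ : Additive (Gamma0 (N * q)) →+ A) :
    (aDnC N q).op A ((repsT r hrNq).op A ψ) = (repsT r hrN).op A ((aDnC N q).op A ψ) := by
  rw [← Reps.toCorr_op, ← Reps.toCorr_op, ← Corr.comp_op, ← Corr.comp_op]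
  refine Corr.op_eq_of_cover _ _ (D2_reduced_left hqN r hrNq)
    (D2_reduced_comp_cores (Gamma0_mul_le N q) _ (repsT_reduced r hrN)) ?_ ?_ A ψ
  · exact Fintype.card_congr (Equiv.prodComm _ _)
  · rintro ⟨x, i⟩
    have h1 := (repsT r hrN).rel (x.out⁻¹ : Gamma0 N) i
    obtain ⟨y, g, hg⟩ := D2_exists_out (Γ₂ := Gamma0 (N * q)) ((repsT r hrN).coc (x.out⁻¹ : Gamma0 N) i)
    refine ⟨((repsT r hrN).perm (x.out⁻¹ : Gamma0 N) i, y), g, 1, one_pos, ?_⟩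
    rw [one_smul]
    congr 1
    show heckeRep r i * mapGL ℝ ((x.out⁻¹ : Gamma0 N) : SL(2, ℤ)) = mapGL ℝ (g : SL(2, ℤ)) *
      (mapGL ℝ ((y.out⁻¹ : Gamma0 N) : SL(2, ℤ)) *
        heckeRep r ((repsT r hrN).perm (x.out⁻¹ : Gamma0 N) i))
    rw [← mul_assoc, ← map_mul, ← hg]
    exact h1

end Fermat.Agent.S41
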