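import Fermat.Agent.S41.D.Tools

/-!
# S41, module D, file D3: the Atkin-Lehner involution commutes with `T_r`, `r ∤ N q`
-/

set_option autoImplicit false

open CongruenceSubgroup Matrix.SpecialLinearGroup
open scoped MatrixGroups
open Fermat.Agent.GR.B

namespace Fermat.Agent.S41

open P2MW.S_ModularForm_heckeT_slash_eq_self_of_mem_Gamma0.ModularForm.HeckeSlashInvariance

variable {N q : ℕ} {A : Type*} [AddCommGroup A]

/-! ### auxiliary lemmas -/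

theorem D3_cancel_right (X Y w : GL (Fin 2) ℝ) (c : ℝ)
    (h : ((X * w : GL (Fin 2) ℝ) : Matrix (Fin 2) (Fin 2) ℝ) =
      c • ((Y * w : GL (Fin 2) ℝ) : Matrix (Fin 2) (Fin 2) ℝ)) :
    (X : Matrix (Fin 2) (Fin 2) ℝ) = c • (Y : Matrix (Fin 2) (Fin 2) ℝ) := by
  have hw : (w : Matrix (Fin 2) (Fin 2) ℝ) * ((w⁻¹ : GL (Fin 2) ℝ) : Matrix (Fin 2) (Fin 2) ℝ) = 1 := by
    rw [← Matrix.GeneralLinearGroup.coe_mul, mul_inv_cancel, Matrix.GeneralLinearGroup.coe_one]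
  have h2 := congrArg (· * ((w⁻¹ : GL (Fin 2) ℝ) : Matrix (Fin 2) (Fin 2) ℝ)) h
  simp only [Matrix.GeneralLinearGroup.coe_mul, Matrix.smul_mul, Matrix.mul_assoc, hw,
    Matrix.mul_one] at h2
  exact h2

theorem D3_cancel_left (X Y w : GL (Fin 2) ℝ) (c : ℝ)
    (h : ((w * X : GL (Fin 2) ℝ) : Matrix (Fin 2) (Fin 2) ℝ) =
      c • ((w * Y : GL (Fin 2) ℝ) : Matrix (Fin 2) (Fin 2) ℝ)) :
    (X : Matrix (Fin 2) (Fin 2) ℝ) = c • (Y : Matrix (Fin 2) (Fin 2) ℝ) := by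
  have hw : ((w⁻¹ : GL (Fin 2) ℝ) : Matrix (Fin 2) (Fin 2) ℝ) * (w : Matrix (Fin 2) (Fin 2) ℝ) = 1 := by
    rw [← Matrix.GeneralLinearGroup.coe_mul, inv_mul_cancel, Matrix.GeneralLinearGroup.coe_one]
  have h2 := congrArg (((w⁻¹ : GL (Fin 2) ℝ) : Matrix (Fin 2) (Fin 2) ℝ) * ·) h
  simp only [Matrix.GeneralLinearGroup.coe_mul, Matrix.mul_smul, ← Matrix.mul_assoc, hw,
    Matrix.one_mul] at h2
  exact h2

theorem D3_heckeRep_form (r : ℕ) [Fact r.Prime] (i : OnePoint (ZMod r)) :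
    ∃ a b d : ℤ, a * d = r ∧
      ((heckeRep r i : GL (Fin 2) ℝ) : Matrix (Fin 2) (Fin 2) ℝ) =
        !![(a : ℝ), (b : ℝ); 0, (d : ℝ)] := by
  have hr : r ≠ 0 := (Fact.out : r.Prime).ne_zero
  induction i using OnePoint.rec with
  | infty =>
    refine ⟨r, 0, 1, by ring, ?_⟩
    rw [heckeRep_infty, ModularForm.val_heckeDiagMatrix hr]
    simp
  | coe j =>
    refine ⟨1, j.val, r, by ring, ?_⟩
    rw [heckeRep_coe, ModularForm.val_heckeMatrix hr]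
    simp

/-- `w α_i = g α_j w`. -/
theorem D3_cover (𝔴 : AL N q) (r : ℕ) [Fact r.Prime] (hrNq : ¬ r ∣ N * q)
    (i : OnePoint (ZMod r)) :
    ∃ (j : OnePoint (ZMod r)) (g : Gamma0 (N * q)),
      𝔴.w * heckeRep r i = mapGL ℝ (g : SL(2, ℤ)) * heckeRep r j * 𝔴.w := by
  obtain ⟨a, b, d, had, hform⟩ := D3_heckeRep_form r i
  have hxy := 𝔴.hxy
  have hdet : ((q : ℤ) * 𝔴.x * a - N * q * 𝔴.x * b - N * 𝔴.y * d) *
      (q * 𝔴.x * (N * b + d) - N * a * 𝔴.y) -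
      (𝔴.x * (q * 𝔴.x * b + 𝔴.y * d - a * 𝔴.y)) * (N * q * (a - N * b - d)) = r := by
    have h1 : ((q : ℤ) * 𝔴.x * a - N * q * 𝔴.x * b - N * 𝔴.y * d) *
      (q * 𝔴.x * (N * b + d) - N * a * 𝔴.y) -
      (𝔴.x * (q * 𝔴.x * b + 𝔴.y * d - a * 𝔴.y)) * (N * q * (a - N * b - d)) =
        a * d * ((q : ℤ) * 𝔴.x - N * 𝔴.y) ^ 2 := by ring
    rw [h1, hxy, had]
    ring
  have hc : ((N * q : ℕ) : ℤ) ∣ (N : ℤ) * q * (a - N * b - d) :=
    ⟨a - N * b - d, by push_cast; ring⟩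
  obtain ⟨g, j, hgj⟩ := exists_heckeRep_of_det (M := N * q) r hrNq _ _ _ _ hdet hc
  refine ⟨j, g, ?_⟩
  have hxyR : (q : ℝ) * (𝔴.x : ℝ) - (N : ℝ) * (𝔴.y : ℝ) = 1 := by exact_mod_cast hxy
  apply Matrix.GeneralLinearGroup.ext
  intro k l
  rw [Matrix.GeneralLinearGroup.coe_mul, Matrix.GeneralLinearGroup.coe_mul (_ * _) 𝔴.w, ← hgj,
    hform, 𝔴.hw, Matrix.mul_apply, Matrix.mul_apply, Fin.sum_univ_two, Fin.sum_univ_two]
  fin_cases k <;> fin_cases l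
  · simp only [Fin.zero_eta, Fin.isValue, Matrix.of_apply, Matrix.cons_val', Matrix.cons_val_zero,
      Matrix.cons_val_fin_one, Matrix.cons_val_one, Fin.mk_one]
    push_cast
    linear_combination (-((q : ℝ) * 𝔴.x * a)) * hxyR
  · simp only [Fin.zero_eta, Fin.isValue, Matrix.of_apply, Matrix.cons_val', Matrix.cons_val_zero,
      Matrix.cons_val_fin_one, Matrix.cons_val_one, Fin.mk_one]
    push_cast
    linear_combination (-((q : ℝ) * 𝔴.x * b + 𝔴.y * d)) * hxyR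
  · simp only [Fin.zero_eta, Fin.isValue, Matrix.of_apply, Matrix.cons_val', Matrix.cons_val_zero,
      Matrix.cons_val_fin_one, Matrix.cons_val_one, Fin.mk_one]
    push_cast
    linear_combination (-((N : ℝ) * q * a)) * hxyR
  · simp only [Fin.zero_eta, Fin.isValue, Matrix.of_apply, Matrix.cons_val', Matrix.cons_val_zero,
      Matrix.cons_val_fin_one, Matrix.cons_val_one, Fin.mk_one]
    push_cast
    linear_combination (-((N : ℝ) * q * b + q * d)) * hxyR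

theorem D3_reduced_right (𝔴 : AL N q) (r : ℕ) [Fact r.Prime] (hrNq : ¬ r ∣ N * q) :
    (𝔴.corr.comp (repsT r hrNq : Reps (N * q)).toCorr).Reduced := by
  rintro ⟨⟨⟩, i⟩ ⟨⟨⟩, j⟩ g c hc h
  have h1 : ((heckeRep r i * 𝔴.w : GL (Fin 2) ℝ) : Matrix (Fin 2) (Fin 2) ℝ) =
      c • ((mapGL ℝ (g : SL(2, ℤ)) * heckeRep r j * 𝔴.w : GL (Fin 2) ℝ) :
        Matrix (Fin 2) (Fin 2) ℝ) := by
    rw [mul_assoc]
    exact h
  have h2 := D3_cancel_right _ _ _ _ h1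
  have h3 : i = j := repsT_reduced r hrNq i j g c hc h2
  rw [h3]

theorem D3_reduced_left (𝔴 : AL N q) (r : ℕ) [Fact r.Prime] (hrNq : ¬ r ∣ N * q) :
    ((repsT r hrNq : Reps (N * q)).toCorr.comp 𝔴.corr).Reduced := by
  rintro ⟨i, ⟨⟩⟩ ⟨j, ⟨⟩⟩ g c hc h
  have hg : mapGL ℝ (g : SL(2, ℤ)) * 𝔴.w = 𝔴.w * mapGL ℝ ((𝔴.c.symm g : Gamma0 (N * q)) : SL(2, ℤ)) := by
    rw [𝔴.hc, MulEquiv.apply_symm_apply]
  have h1 : ((𝔴.w * heckeRep r i : GL (Fin 2) ℝ) : Matrix (Fin 2) (Fin 2) ℝ) =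
      c • ((𝔴.w * (mapGL ℝ ((𝔴.c.symm g : Gamma0 (N * q)) : SL(2, ℤ)) * heckeRep r j) :
        GL (Fin 2) ℝ) : Matrix (Fin 2) (Fin 2) ℝ) := by
    rw [← mul_assoc, ← hg, mul_assoc]
    exact h
  have h2 := D3_cancel_left _ _ _ _ h1
  have h3 : i = j := repsT_reduced r hrNq i j (𝔴.c.symm g) c hc h2
  rw [h3]

theorem AL.w_T [Fact q.Prime] (𝔴 : AL N q) (r : ℕ) [Fact r.Prime] (hrNq : ¬ r ∣ N * q)
    (ψ : Additive (Gamma0 (N * q)) →+ A) :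
    𝔴.corr.op A ((repsT r hrNq).op A ψ) = (repsT r hrNq).op A (𝔴.corr.op A ψ) := by
  rw [← Reps.toCorr_op, ← Reps.toCorr_op, ← Corr.comp_op, ← Corr.comp_op]
  symm
  refine Corr.op_eq_of_cover _ _ (D3_reduced_left 𝔴 r hrNq) (D3_reduced_right 𝔴 r hrNq)
    (Fintype.card_congr (Equiv.prodComm _ _)) ?_ A ψ
  rintro ⟨i, ⟨⟩⟩
  obtain ⟨j, g, hgj⟩ := D3_cover 𝔴 r hrNq i
  refine ⟨((), j), g, 1, one_pos, ?_⟩
  rw [one_smul]
  have h1 : 𝔴.w * heckeRep r i = mapGL ℝ (g : SL(2, ℤ)) * (heckeRep r j * 𝔴.w) := by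
    rw [hgj, mul_assoc]
  exact congrArg _ h1

end Fermat.Agent.S41
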