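import Fermat.Agent.S41.D.Basic

/-!
# S41, module D, file D4: `w² = 1` and `b^* = w a^*`
-/

set_option autoImplicit false

open CongruenceSubgroup Matrix.SpecialLinearGroup
open scoped MatrixGroups
open Fermat.Agent.GR.B

namespace Fermat.Agent.S41

variable {N q : ℕ} {A : Type*} [AddCommGroup A]

/-- cancel a scalar. -/
theorem D4_of_smul {s : ℝ} (hs : s ≠ 0) {W : GL (Fin 2) ℝ} {g γ γ' : SL(2, ℤ)}
    (hW : (W : Matrix (Fin 2) (Fin 2) ℝ) =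
      s • ((mapGL ℝ g : GL (Fin 2) ℝ) : Matrix (Fin 2) (Fin 2) ℝ))
    (h : W * mapGL ℝ γ = mapGL ℝ γ' * W) : g * γ = γ' * g := by
  apply mapGL_injective (S := ℝ)
  rw [map_mul, map_mul]
  apply Units.ext
  have h1 := congrArg (fun M : GL (Fin 2) ℝ => (M : Matrix (Fin 2) (Fin 2) ℝ)) h
  simp only [Matrix.GeneralLinearGroup.coe_mul, hW, Matrix.smul_mul, Matrix.mul_smul] at h1
  exact smul_right_injective _ hs h1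

/-- a hom to an abelian group takes the same value on `γ` and `γ'` if `g γ = γ' g`. -/
theorem D4_hom_eq {Γ : Subgroup SL(2, ℤ)} (ψ : Additive Γ →+ A) {g γ γ' : Γ}
    (h : g * γ = γ' * g) : ψ (Additive.ofMul γ') = ψ (Additive.ofMul γ) := by
  have h1 := congrArg (fun z : Γ => ψ (Additive.ofMul z)) h
  simp only [ofMul_mul, map_add] at h1
  rw [add_comm] at h1
  exact (add_right_cancel h1).symm

/-- `g₁ = w² / q`. -/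
def AL.D4_g1 (𝔴 : AL N q) : SL(2, ℤ) :=
  ⟨!![(q : ℤ) * 𝔴.x ^ 2 + N * 𝔴.y, 𝔴.x * 𝔴.y + 𝔴.y; (N : ℤ) * q * (𝔴.x + 1), (N : ℤ) * 𝔴.y + q], by
    rw [Matrix.det_fin_two_of]
    linear_combination ((q : ℤ) * 𝔴.x - N * 𝔴.y + 1) * 𝔴.hxy⟩

theorem AL.D4_g1_mem (𝔴 : AL N q) : 𝔴.D4_g1 ∈ Gamma0 (N * q) := by
  apply mem_Gamma0_of_dvd
  change ((N * q : ℕ) : ℤ) ∣ (N : ℤ) * q * (𝔴.x + 1)
  push_cast
  exact Dvd.intro _ rfl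

theorem AL.D4_w_mul_w (𝔴 : AL N q) :
    ((𝔴.w * 𝔴.w : GL (Fin 2) ℝ) : Matrix (Fin 2) (Fin 2) ℝ) =
      (q : ℝ) • ((mapGL ℝ 𝔴.D4_g1 : GL (Fin 2) ℝ) : Matrix (Fin 2) (Fin 2) ℝ) := by
  have h00 : 𝔴.D4_g1 0 0 = (q : ℤ) * 𝔴.x ^ 2 + N * 𝔴.y := rfl
  have h01 : 𝔴.D4_g1 0 1 = 𝔴.x * 𝔴.y + 𝔴.y := rfl
  have h10 : 𝔴.D4_g1 1 0 = (N : ℤ) * q * (𝔴.x + 1) := rfl
  have h11 : 𝔴.D4_g1 1 1 = (N : ℤ) * 𝔴.y + q := rfl
  rw [Matrix.GeneralLinearGroup.coe_mul, 𝔴.hw, mapGL_coe_matrix]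
  ext i j
  fin_cases i <;> fin_cases j <;>
    simp [h00, h01, h10, h11, Matrix.mul_apply, Fin.sum_univ_two] <;> ring

/-- `g₀ = w δ⁻¹`. -/
def AL.D4_g0 (𝔴 : AL N q) : SL(2, ℤ) :=
  ⟨!![𝔴.x, 𝔴.y; (N : ℤ), (q : ℤ)], by
    rw [Matrix.det_fin_two_of]
    linear_combination 𝔴.hxy⟩

theorem AL.D4_g0_mem (𝔴 : AL N q) : 𝔴.D4_g0 ∈ Gamma0 N := by
  apply mem_Gamma0_of_dvd
  exact dvd_refl _

theorem AL.D4_w_eq [NeZero q] (𝔴 : AL N q) :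
    𝔴.w = mapGL ℝ 𝔴.D4_g0 * ModularForm.heckeDiagMatrix q := by
  apply Units.ext
  rw [Units.val_mul]
  change (𝔴.w : Matrix (Fin 2) (Fin 2) ℝ) = ((mapGL ℝ 𝔴.D4_g0 : GL (Fin 2) ℝ) :
    Matrix (Fin 2) (Fin 2) ℝ) * ((ModularForm.heckeDiagMatrix q : GL (Fin 2) ℝ) :
    Matrix (Fin 2) (Fin 2) ℝ)
  have h00 : 𝔴.D4_g0 0 0 = 𝔴.x := rfl
  have h01 : 𝔴.D4_g0 0 1 = 𝔴.y := rfl
  have h10 : 𝔴.D4_g0 1 0 = (N : ℤ) := rfl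
  have h11 : 𝔴.D4_g0 1 1 = (q : ℤ) := rfl
  rw [𝔴.hw, ModularForm.val_heckeDiagMatrix (NeZero.ne q), mapGL_coe_matrix]
  ext i j
  fin_cases i <;> fin_cases j <;>
    simp [h00, h01, h10, h11, Matrix.mul_apply, Fin.sum_univ_two, mul_comm]

theorem AL.w_w [NeZero q] (𝔴 : AL N q) (ψ : Additive (Gamma0 (N * q)) →+ A) :
    𝔴.corr.op A (𝔴.corr.op A ψ) = ψ := by
  refine AddMonoidHom.ext fun γ => ?_
  induction γ using Additive.rec with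
  | ofMul γ =>
    rw [AL.corr_op_apply, AL.corr_op_apply]
    have hq : (q : ℝ) ≠ 0 := Nat.cast_ne_zero.2 (NeZero.ne q)
    have h1 : 𝔴.w * 𝔴.w * mapGL ℝ (γ : SL(2, ℤ)) =
        mapGL ℝ (𝔴.c (𝔴.c γ) : SL(2, ℤ)) * (𝔴.w * 𝔴.w) := by
      rw [mul_assoc, 𝔴.hc γ, ← mul_assoc, 𝔴.hc (𝔴.c γ), mul_assoc]
    have h2 := D4_of_smul hq 𝔴.D4_w_mul_w h1
    exact D4_hom_eq ψ (g := ⟨𝔴.D4_g1, 𝔴.D4_g1_mem⟩) (Subtype.ext h2)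

theorem AL.bUp_eq [NeZero q] (𝔴 : AL N q) (φ : Additive (Gamma0 N) →+ A) :
    (bUpC N q).op A φ = 𝔴.corr.op A ((aUpC N q).op A φ) := by
  refine AddMonoidHom.ext fun γ => ?_
  induction γ using Additive.rec with
  | ofMul γ =>
    rw [AL.corr_op_apply, aUpC_op_apply, bUpC_op_apply]
    have h1 : mapGL ℝ 𝔴.D4_g0 * mapGL ℝ (conjQ N q γ : SL(2, ℤ)) =
        mapGL ℝ (𝔴.c γ : SL(2, ℤ)) * mapGL ℝ 𝔴.D4_g0 := by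
      have h2 := 𝔴.hc γ
      rw [𝔴.D4_w_eq, mul_assoc, conjQ_rel, ← mul_assoc, ← mul_assoc] at h2
      exact mul_right_cancel h2
    rw [← map_mul, ← map_mul] at h1
    have h3 := mapGL_injective (S := ℝ) h1
    exact (D4_hom_eq φ (g := ⟨𝔴.D4_g0, 𝔴.D4_g0_mem⟩) (γ := conjQ N q γ)
      (γ' := inclQ N q (𝔴.c γ)) (Subtype.ext h3)).symm

end Fermat.Agent.S41
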