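import Fermat.Agent.S41.D.Index

/-!
# S41, module D, file D5: `a_* a^* = q + 1`
-/

set_option autoImplicit false

open CongruenceSubgroup Matrix.SpecialLinearGroup
open scoped MatrixGroups
open Fermat.Agent.GR.B

namespace Fermat.Agent.S41

variable {N q : ℕ} {A : Type*} [AddCommGroup A]

/-- corestriction after restriction is multiplication by the index. -/
theorem D5_cores_res {Γ₁ Γ₂ : Subgroup SL(2, ℤ)} [(Γ₂.subgroupOf Γ₁).FiniteIndex] (h : Γ₂ ≤ Γ₁)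
    (φ : Additive Γ₁ →+ A) :
    (coresCorr Γ₁ Γ₂).op A ((resCorr h).op A φ) = Nat.card (Γ₁ ⧸ Γ₂.subgroupOf Γ₁) • φ := by
  refine AddMonoidHom.ext fun γ => ?_
  induction γ using Additive.rec with
  | ofMul γ =>
    rw [Corr.op_apply]
    let _ : Fintype (Γ₁ ⧸ Γ₂.subgroupOf Γ₁) := Fintype.ofFinite _
    show ∑ x : Γ₁ ⧸ Γ₂.subgroupOf Γ₁, (resCorr h).op A φ
      (Additive.ofMul (⟨coresCoc γ x, coresCoc_mem γ x⟩ : Γ₂)) = _
    have h1 : ∀ x : Γ₁ ⧸ Γ₂.subgroupOf Γ₁, (resCorr h).op A φ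
        (Additive.ofMul (⟨coresCoc γ x, coresCoc_mem γ x⟩ : Γ₂)) =
        φ (Additive.ofMul γ) +
          (φ (Additive.ofMul (γ⁻¹ • x).out) - φ (Additive.ofMul x.out)) := by
      intro x
      rw [resCorr_op_apply]
      have e : (⟨((⟨coresCoc γ x, coresCoc_mem γ x⟩ : Γ₂) : SL(2, ℤ)),
          h (⟨coresCoc γ x, coresCoc_mem γ x⟩ : Γ₂).2⟩ : Γ₁) = x.out⁻¹ * γ * (γ⁻¹ • x).out :=
        Subtype.ext rfl
      rw [e, ofMul_mul, ofMul_mul, ofMul_inv, map_add, map_add, map_neg]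
      abel
    rw [Finset.sum_congr rfl fun x _ => h1 x, Finset.sum_add_distrib, Finset.sum_sub_distrib,
      Finset.sum_const, Finset.card_univ]
    have h2 : ∑ x : Γ₁ ⧸ Γ₂.subgroupOf Γ₁, φ (Additive.ofMul (γ⁻¹ • x).out) =
        ∑ x : Γ₁ ⧸ Γ₂.subgroupOf Γ₁, φ (Additive.ofMul x.out) :=
      Equiv.sum_comp (MulAction.toPerm γ⁻¹)
        fun x : Γ₁ ⧸ Γ₂.subgroupOf Γ₁ => φ (Additive.ofMul x.out)
    rw [h2, sub_self, add_zero, Nat.card_eq_fintype_card]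
    rfl

theorem aDn_aUp [NeZero N] [Fact q.Prime] (hqN : ¬ q ∣ N) (φ : Additive (Gamma0 N) →+ A) :
    (aDnC N q).op A ((aUpC N q).op A φ) = (q + 1) • φ := by
  unfold aDnC aUpC
  rw [D5_cores_res, card_quotient hqN]

end Fermat.Agent.S41
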