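import Fermat.Agent.S41.D.Tools
import Fermat.Agent.S41.D.Index

/-!
# S41, module D, file D6: `a_* b^* = T_q`
-/

set_option autoImplicit false

open CongruenceSubgroup Matrix.SpecialLinearGroup
open scoped MatrixGroups
open Fermat.Agent.GR.B
open P2MW.S_ModularForm_heckeT_slash_eq_self_of_mem_Gamma0.ModularForm.HeckeSlashInvariance

namespace Fermat.Agent.S41

variable {N q : ℕ} {A : Type*} [AddCommGroup A]

/-- auxiliary: `δ ρ ∈ Γ₀(N) * heckeRep q (botPt q ρ)`. -/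
theorem D6_cover [Fact q.Prime] (hqN : ¬ q ∣ N) (ρ : Gamma0 N) :
    ∃ g : Gamma0 N, ModularForm.heckeDiagMatrix q * mapGL ℝ (ρ : SL(2, ℤ)) =
      mapGL ℝ (g : SL(2, ℤ)) * heckeRep q (botPt q (ρ : SL(2, ℤ))) := by
  have hq : q.Prime := Fact.out
  have hq0 : q ≠ 0 := hq.ne_zero
  have : NeZero q := ⟨hq0⟩
  by_cases h : (((ρ : SL(2, ℤ)) 1 0 : ℤ) : ZMod q) = 0
  · have hb : botPt q (ρ : SL(2, ℤ)) = OnePoint.infty := by
      unfold botPt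
      rw [if_pos h]
    have hmem : (ρ : SL(2, ℤ)) ∈ Gamma0 (N * q) := by
      apply mem_Gamma0_of_dvd
      push_cast
      have hcop : IsCoprime (N : ℤ) (q : ℤ) :=
        Nat.isCoprime_iff_coprime.2 ((Nat.Prime.coprime_iff_not_dvd hq).2 hqN).symm
      exact hcop.mul_dvd (dvd_of_mem_Gamma0 ρ) ((ZMod.intCast_zmod_eq_zero_iff_dvd _ _).1 h)
    refine ⟨conjQ N q ⟨ρ, hmem⟩, ?_⟩
    rw [hb]
    exact conjQ_rel N q ⟨ρ, hmem⟩
  · set j : ZMod q := (((ρ : SL(2, ℤ)) 1 1 : ℤ) : ZMod q) * ((((ρ : SL(2, ℤ)) 1 0 : ℤ) : ZMod q))⁻¹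
      with hj
    have hb : botPt q (ρ : SL(2, ℤ)) = ((j : ZMod q) : OnePoint (ZMod q)) := by
      unfold botPt
      rw [if_neg h]
    have hdvd : (q : ℤ) ∣ (ρ : SL(2, ℤ)) 1 1 - (ρ : SL(2, ℤ)) 1 0 * (j.val : ℤ) := by
      rw [← ZMod.intCast_zmod_eq_zero_iff_dvd]
      push_cast
      rw [ZMod.natCast_zmod_val, hj]
      field_simp
      ring
    obtain ⟨e, he⟩ := hdvd
    have hdet : (ρ : SL(2, ℤ)) 0 0 * (ρ : SL(2, ℤ)) 1 1 - (ρ : SL(2, ℤ)) 0 1 * (ρ : SL(2, ℤ)) 1 0 = 1 := by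
      have := (ρ : SL(2, ℤ)).det_coe
      rwa [Matrix.det_fin_two] at this
    let g : SL(2, ℤ) := ⟨!![(q : ℤ) * (ρ : SL(2, ℤ)) 0 0,
        (ρ : SL(2, ℤ)) 0 1 - (ρ : SL(2, ℤ)) 0 0 * (j.val : ℤ); (ρ : SL(2, ℤ)) 1 0, e], by
      rw [Matrix.det_fin_two_of]
      linear_combination hdet - (ρ : SL(2, ℤ)) 0 0 * he⟩
    have h00 : g 0 0 = (q : ℤ) * (ρ : SL(2, ℤ)) 0 0 := rfl
    have h01 : g 0 1 = (ρ : SL(2, ℤ)) 0 1 - (ρ : SL(2, ℤ)) 0 0 * (j.val : ℤ) := rfl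
    have h10 : g 1 0 = (ρ : SL(2, ℤ)) 1 0 := rfl
    have h11 : g 1 1 = e := rfl
    refine ⟨⟨g, mem_Gamma0_of_dvd (by rw [h10]; exact dvd_of_mem_Gamma0 ρ)⟩, ?_⟩
    rw [hb]
    have hrep : heckeRep q ((j : ZMod q) : OnePoint (ZMod q)) = ModularForm.heckeMatrix q j.val := rfl
    rw [hrep]
    have he' : ((ρ : SL(2, ℤ)) 1 1 : ℝ) = (ρ : SL(2, ℤ)) 1 0 * (j.val : ℝ) + q * e := by
      have : (ρ : SL(2, ℤ)) 1 1 = (ρ : SL(2, ℤ)) 1 0 * (j.val : ℤ) + q * e := by linarith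
      exact_mod_cast congrArg (Int.cast : ℤ → ℝ) this
    apply Matrix.GeneralLinearGroup.ext
    intro i k
    rw [Matrix.GeneralLinearGroup.coe_mul, Matrix.GeneralLinearGroup.coe_mul,
      ModularForm.val_heckeDiagMatrix hq0, ModularForm.val_heckeMatrix hq0, mapGL_coe_matrix,
      mapGL_coe_matrix, Matrix.mul_apply, Matrix.mul_apply, Fin.sum_univ_two, Fin.sum_univ_two]
    fin_cases i <;> fin_cases k <;>
      simp [h00, h01, h10, h11, he'] <;> ring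

theorem aDn_bUp [NeZero N] [Fact q.Prime] (hqN : ¬ q ∣ N) (φ : Additive (Gamma0 N) →+ A) :
    (aDnC N q).op A ((bUpC N q).op A φ) = (repsT q hqN).op A φ := by
  rw [← Corr.comp_op, ← Reps.toCorr_op]
  refine Corr.op_eq_of_equiv _ _ (repsT_reduced q hqN)
    ((Equiv.prodPUnit _).trans (Equiv.ofBijective _ (botPt_out_bijective hqN))) ?_ A φ
  rintro ⟨x, ⟨⟩⟩
  obtain ⟨g, hg⟩ := D6_cover hqN (x.out⁻¹ : Gamma0 N)
  refine ⟨g, 1, one_pos, ?_⟩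
  rw [one_smul]
  exact congrArg _ hg

end Fermat.Agent.S41
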