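import Fermat.Agent.S41.D.Tools
import Fermat.Agent.S41.D.Index

/-!
# S41, module D, file D7: `a^* a_* = 1 + U_q w`
-/

set_option autoImplicit false

open CongruenceSubgroup Matrix.SpecialLinearGroup
open scoped MatrixGroups
open Fermat.Agent.GR.B

namespace Fermat.Agent.S41

variable {N q : ℕ} {A : Type*} [AddCommGroup A]

/-- auxiliary: the operator of the trivial restriction is the identity. -/
theorem D7_res_op (Γ : Subgroup SL(2, ℤ)) (ψ : Additive Γ →+ A) :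
    (resCorr (le_refl Γ)).op A ψ = ψ := by
  refine AddMonoidHom.ext fun γ => ?_
  induction γ using Additive.rec with
  | ofMul γ => rw [resCorr_op_apply]

/-- auxiliary: the left hand family is reduced. -/
theorem D7_reduced [NeZero N] [NeZero q] : ((aUpC N q).comp (aDnC N q)).Reduced := by
  rintro ⟨⟨⟩, x⟩ ⟨⟨⟩, x'⟩ g c hc h
  have h1 : x = x' := by
    refine coresCorr_reduced (Gamma0 N) (Gamma0 (N * q)) x x' g c hc ?_
    have e1 : ∀ z, ((aUpC N q).comp (aDnC N q)).α ((), z)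
        = (coresCorr (Gamma0 N) (Gamma0 (N * q))).α z := fun z => mul_one _
    rw [e1, e1] at h
    exact h
  rw [h1]

/-- auxiliary: the matrix `ρ'_j = (x, x j + y; N, N j + q)`. -/
def D7_rho (𝔴 : AL N q) (j : ℤ) : Gamma0 N :=
  ⟨⟨!![𝔴.x, 𝔴.x * j + 𝔴.y; (N : ℤ), (N : ℤ) * j + q], by
    rw [Matrix.det_fin_two_of]
    linear_combination 𝔴.hxy⟩, mem_Gamma0_of_dvd (dvd_refl _)⟩

theorem D7_botPt_rho [Fact q.Prime] (hqN : ¬ q ∣ N) (𝔴 : AL N q) (j : ZMod q) :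
    botPt q (D7_rho 𝔴 (j.val : ℤ) : SL(2, ℤ)) = ((j : ZMod q) : OnePoint (ZMod q)) := by
  have hN : ((N : ℤ) : ZMod q) ≠ 0 := by
    rw [Ne, ZMod.intCast_zmod_eq_zero_iff_dvd]
    exact_mod_cast hqN
  have h10 : (D7_rho 𝔴 (j.val : ℤ) : SL(2, ℤ)) 1 0 = (N : ℤ) := rfl
  have h11 : (D7_rho 𝔴 (j.val : ℤ) : SL(2, ℤ)) 1 1 = (N : ℤ) * (j.val : ℤ) + q := rfl
  unfold botPt
  rw [h10, h11, if_neg hN]
  congr 1
  push_cast
  rw [ZMod.natCast_zmod_val, ZMod.natCast_self, add_zero]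
  have hN' : ((N : ℕ) : ZMod q) ≠ 0 := by simpa using hN
  field_simp

theorem D7_botPt_one [Fact q.Prime] : botPt q (1 : SL(2, ℤ)) = OnePoint.infty := by
  unfold botPt
  rw [if_pos (by simp)]

/-- auxiliary: `w α_j = q ρ'_j`. -/
theorem D7_w_mul [NeZero q] (𝔴 : AL N q) (j : ℕ) :
    ((𝔴.w * ModularForm.heckeMatrix q j : GL (Fin 2) ℝ) : Matrix (Fin 2) (Fin 2) ℝ) =
      (q : ℝ) • ((mapGL ℝ (D7_rho 𝔴 (j : ℤ) : SL(2, ℤ)) : GL (Fin 2) ℝ) :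
        Matrix (Fin 2) (Fin 2) ℝ) := by
  have hq0 : q ≠ 0 := NeZero.ne q
  have h00 : (D7_rho 𝔴 (j : ℤ) : SL(2, ℤ)) 0 0 = 𝔴.x := rfl
  have h01 : (D7_rho 𝔴 (j : ℤ) : SL(2, ℤ)) 0 1 = 𝔴.x * j + 𝔴.y := rfl
  have h10 : (D7_rho 𝔴 (j : ℤ) : SL(2, ℤ)) 1 0 = (N : ℤ) := rfl
  have h11 : (D7_rho 𝔴 (j : ℤ) : SL(2, ℤ)) 1 1 = (N : ℤ) * j + q := rfl
  ext i k
  rw [Matrix.GeneralLinearGroup.coe_mul, 𝔴.hw, ModularForm.val_heckeMatrix hq0, mapGL_coe_matrix,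
    Matrix.mul_apply, Fin.sum_univ_two, Matrix.smul_apply]
  fin_cases i <;> fin_cases k <;>
    simp [h00, h01, h10, h11] <;> ring

/-- auxiliary: an element of `Γ₀(N)` is `g * (x.out)⁻¹` with `g ∈ Γ₀(N q)`, where `x` is the class
with the same `botPt`. -/
theorem D7_exists [Fact q.Prime] (hqN : ¬ q ∣ N) (r : Gamma0 N)
    (x : Gamma0 N ⧸ (Gamma0 (N * q)).subgroupOf (Gamma0 N))
    (h : botPt q (r : SL(2, ℤ)) = botPt q ((x.out⁻¹ : Gamma0 N) : SL(2, ℤ))) :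
    ∃ g : Gamma0 (N * q), (r : SL(2, ℤ)) = (g : SL(2, ℤ)) * ((x.out⁻¹ : Gamma0 N) : SL(2, ℤ)) := by
  have h1 := (botPt_eq_iff hqN r (x.out⁻¹ : Gamma0 N)).1 h
  refine ⟨⟨_, h1⟩, ?_⟩
  simp

theorem AL.aUp_aDn [NeZero N] [Fact q.Prime] (hqN : ¬ q ∣ N) (𝔴 : AL N q)
    (ψ : Additive (Gamma0 (N * q)) →+ A) :
    (aUpC N q).op A ((aDnC N q).op A ψ) =
      ψ + (repsU q (Dvd.intro_left N rfl)).op A (𝔴.corr.op A ψ) := by
  have hq : q.Prime := Fact.out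
  have : NeZero q := ⟨hq.ne_zero⟩
  rw [← Corr.comp_op, ← Reps.toCorr_op, ← Corr.comp_op]
  have e0 : ψ + (((repsU q (Dvd.intro_left N rfl) : Reps (N * q)).toCorr.comp 𝔴.corr).op A) ψ
      = ((resCorr (le_refl (Gamma0 (N * q)))).sum
        ((repsU q (Dvd.intro_left N rfl) : Reps (N * q)).toCorr.comp 𝔴.corr)).op A ψ := by
    rw [Corr.sum_op, D7_res_op]
  rw [e0]
  symm
  -- the bijection
  let E := Equiv.ofBijective _ (botPt_out_bijective (N := N) hqN)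
  have hE : ∀ x, E x = botPt q ((x.out⁻¹ : Gamma0 N) : SL(2, ℤ)) := fun _ => rfl
  let e : Unit ⊕ (ZMod q × Unit) ≃
      Unit × (Gamma0 N ⧸ (Gamma0 (N * q)).subgroupOf (Gamma0 N)) :=
    ((Equiv.sumCongr (Equiv.refl Unit) (Equiv.prodPUnit (ZMod q))).trans
      ((Equiv.sumComm _ _).trans ((Equiv.optionEquivSumPUnit (ZMod q)).symm.trans E.symm))).trans
      (Equiv.punitProd _).symm
  have hcov : ∀ i : Unit ⊕ (ZMod q × Unit), ∃ (g : Gamma0 (N * q)) (c : ℝ), 0 < c ∧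
      ((Sum.elim (fun _ : Unit => (1 : GL (Fin 2) ℝ))
        (fun x : ZMod q × Unit => 𝔴.w * ModularForm.heckeMatrix q x.1.val) i : GL (Fin 2) ℝ) :
          Matrix (Fin 2) (Fin 2) ℝ) =
        c • ((mapGL ℝ (g : SL(2, ℤ)) * (mapGL ℝ (((e i).2.out⁻¹ : Gamma0 N) : SL(2, ℤ)) * 1) :
          GL (Fin 2) ℝ) : Matrix (Fin 2) (Fin 2) ℝ) := by
    rintro (⟨⟨⟩⟩ | ⟨j, ⟨⟩⟩)
    · -- the trivial class
      have hx : E (e (Sum.inl ())).2 = OnePoint.infty := E.apply_symm_apply _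
      rw [hE] at hx
      obtain ⟨g, hg⟩ := D7_exists hqN (1 : Gamma0 N) (e (Sum.inl ())).2
        (by rw [hx]; exact D7_botPt_one)
      refine ⟨g, 1, one_pos, ?_⟩
      rw [one_smul, mul_one, ← map_mul, ← hg]
      simp
    · have hx : E (e (Sum.inr (j, ()))).2 = ((j : ZMod q) : OnePoint (ZMod q)) :=
        E.apply_symm_apply _
      rw [hE] at hx
      obtain ⟨g, hg⟩ := D7_exists hqN (D7_rho 𝔴 (j.val : ℤ)) (e (Sum.inr (j, ()))).2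
        (by rw [hx]; exact D7_botPt_rho hqN 𝔴 j)
      refine ⟨g, q, by exact_mod_cast hq.pos, ?_⟩
      rw [mul_one, ← map_mul, ← hg]
      exact D7_w_mul 𝔴 j.val
  exact Corr.op_eq_of_equiv _ _ D7_reduced e hcov A ψ

end Fermat.Agent.S41
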