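import Fermat.Agent.S41.Corr

/-!
# S41, module D, file Cover: the operator of a correspondence only depends on the set of classes
`ℝ_{>0} Γ₂ α i`
-/

set_option autoImplicit false

open CongruenceSubgroup Matrix.SpecialLinearGroup
open scoped MatrixGroups

namespace Fermat.Agent.S41

variable {Γ₁ Γ₂ : Subgroup SL(2, ℤ)}

theorem Cover_det_mapGL (g : SL(2, ℤ)) :
    ((mapGL ℝ g : GL (Fin 2) ℝ) : Matrix (Fin 2) (Fin 2) ℝ).det = 1 := by
  rw [mapGL_coe_matrix]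
  exact (Matrix.SpecialLinearGroup.map (algebraMap ℤ ℝ) g).det_coe

/-- if `c • g = c' • g'` with `g, g' ∈ SL₂(ℤ)`, `c, c' > 0`, then `g = g'`. -/
theorem Cover_eq_of_smul {g g' : SL(2, ℤ)} {c c' : ℝ} (hc : 0 < c) (hc' : 0 < c')
    (h : c • ((mapGL ℝ g : GL (Fin 2) ℝ) : Matrix (Fin 2) (Fin 2) ℝ) =
      c' • ((mapGL ℝ g' : GL (Fin 2) ℝ) : Matrix (Fin 2) (Fin 2) ℝ)) : g = g' := by
  have hd := congrArg Matrix.det h
  rw [Matrix.det_smul, Matrix.det_smul, Cover_det_mapGL, Cover_det_mapGL, Fintype.card_fin,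
    mul_one, mul_one] at hd
  have hcc : c = c' := by nlinarith [sq_nonneg (c - c'), sq_nonneg (c + c')]
  subst hcc
  have h2 : ((mapGL ℝ g : GL (Fin 2) ℝ) : Matrix (Fin 2) (Fin 2) ℝ) =
      ((mapGL ℝ g' : GL (Fin 2) ℝ) : Matrix (Fin 2) (Fin 2) ℝ) :=
    smul_right_injective _ hc.ne' h
  exact mapGL_injective (Units.ext h2)

/-- bijective version. -/
theorem Corr.op_eq_of_equiv (A A' : Corr Γ₁ Γ₂) (hA' : A'.Reduced) (e : A.ι ≃ A'.ι)
    (hcov : ∀ i, ∃ (g : Γ₂) (c : ℝ), 0 < c ∧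
      ((A.α i : GL (Fin 2) ℝ) : Matrix (Fin 2) (Fin 2) ℝ) =
        c • ((mapGL ℝ (g : SL(2, ℤ)) * A'.α (e i) : GL (Fin 2) ℝ) : Matrix (Fin 2) (Fin 2) ℝ))
    (M : Type*) [AddCommGroup M] (φ : Additive Γ₂ →+ M) : A.op M φ = A'.op M φ := by
  choose g c hc hα using hcov
  -- the key matrix identity
  have key : ∀ (γ : Γ₁) (i : A.ι),
      c i • ((mapGL ℝ ((g i * A'.coc γ (e i) : Γ₂) : SL(2, ℤ)) * A'.α (A'.perm γ (e i)) :
        GL (Fin 2) ℝ) : Matrix (Fin 2) (Fin 2) ℝ) =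
      c (A.perm γ i) • ((mapGL ℝ ((A.coc γ i * g (A.perm γ i) : Γ₂) : SL(2, ℤ)) *
        A'.α (e (A.perm γ i)) : GL (Fin 2) ℝ) : Matrix (Fin 2) (Fin 2) ℝ) := by
    intro γ i
    have h1 := congrArg (fun X : GL (Fin 2) ℝ => (X : Matrix (Fin 2) (Fin 2) ℝ)) (A.rel γ i)
    have h2 := congrArg (fun X : GL (Fin 2) ℝ => (X : Matrix (Fin 2) (Fin 2) ℝ)) (A'.rel γ (e i))
    simp only [Units.val_mul] at h1 h2
    rw [hα i, hα (A.perm γ i)] at h1
    simp only [Units.val_mul, Subgroup.coe_mul, map_mul] at h1 ⊢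
    rw [Matrix.smul_mul, Matrix.mul_assoc, h2, Matrix.mul_smul] at h1
    rw [Matrix.mul_assoc, Matrix.mul_assoc, h1]
  have hperm : ∀ (γ : Γ₁) (i : A.ι), A'.perm γ (e i) = e (A.perm γ i) := by
    intro γ i
    apply hA' _ _ ((g i * A'.coc γ (e i))⁻¹ * (A.coc γ i * g (A.perm γ i))) ((c i)⁻¹ * c (A.perm γ i))
      (mul_pos (inv_pos.mpr (hc i)) (hc _))
    have h := key γ i
    have h3 : ((A'.α (A'.perm γ (e i)) : GL (Fin 2) ℝ) : Matrix (Fin 2) (Fin 2) ℝ) =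
        (c i)⁻¹ • (((mapGL ℝ ((g i * A'.coc γ (e i) : Γ₂) : SL(2, ℤ)))⁻¹ : GL (Fin 2) ℝ) :
          Matrix (Fin 2) (Fin 2) ℝ) * (c i • ((mapGL ℝ ((g i * A'.coc γ (e i) : Γ₂) : SL(2, ℤ)) *
            A'.α (A'.perm γ (e i)) : GL (Fin 2) ℝ) : Matrix (Fin 2) (Fin 2) ℝ)) := by
      rw [Matrix.smul_mul, Matrix.mul_smul, smul_smul, inv_mul_cancel₀ (hc i).ne', one_smul,
        ← Units.val_mul, inv_mul_cancel_left]
    rw [h3, h, Matrix.smul_mul, Matrix.mul_smul, smul_smul, ← Units.val_mul]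
    congr 2
    simp only [Subgroup.coe_mul, Subgroup.coe_inv, map_mul, map_inv, mul_assoc]
  have hcoc : ∀ (γ : Γ₁) (i : A.ι),
      g i * A'.coc γ (e i) = A.coc γ i * g (A.perm γ i) := by
    intro γ i
    have h := key γ i
    rw [hperm, Units.val_mul, Units.val_mul, ← Matrix.smul_mul, ← Matrix.smul_mul] at h
    have h4 := congrArg (fun X => X * (((A'.α (e (A.perm γ i)))⁻¹ : GL (Fin 2) ℝ) :
      Matrix (Fin 2) (Fin 2) ℝ)) h
    simp only [Matrix.mul_assoc, ← Units.val_mul, mul_inv_cancel, Units.val_one,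
      Matrix.mul_one] at h4
    exact Subtype.ext (Cover_eq_of_smul (hc i) (hc _) h4)
  refine AddMonoidHom.ext fun γ => ?_
  induction γ using Additive.rec with
  | ofMul γ =>
    rw [Corr.op_apply, Corr.op_apply, ← Equiv.sum_comp e]
    have h5 : ∀ i, φ (Additive.ofMul (A.coc γ i)) =
        φ (Additive.ofMul (A'.coc γ (e i))) + (φ (Additive.ofMul (g i)) -
          φ (Additive.ofMul (g (A.perm γ i)))) := by
      intro i
      have := congrArg (fun x => φ (Additive.ofMul x)) (hcoc γ i)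
      simp only [ofMul_mul, map_add] at this
      rw [eq_comm, ← sub_eq_zero]
      rw [← sub_eq_zero] at this
      rw [← this]
      abel
    simp only [h5, Finset.sum_add_distrib, Finset.sum_sub_distrib]
    rw [Equiv.sum_comp (A.perm γ) (fun i => φ (Additive.ofMul (g i))), sub_self, add_zero]

/-- counting version. -/
theorem Corr.op_eq_of_cover (A A' : Corr Γ₁ Γ₂) (hA : A.Reduced) (hA' : A'.Reduced)
    (hcard : Fintype.card A.ι = Fintype.card A'.ι)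
    (hcov : ∀ i, ∃ (j : A'.ι) (g : Γ₂) (c : ℝ), 0 < c ∧
      ((A.α i : GL (Fin 2) ℝ) : Matrix (Fin 2) (Fin 2) ℝ) =
        c • ((mapGL ℝ (g : SL(2, ℤ)) * A'.α j : GL (Fin 2) ℝ) : Matrix (Fin 2) (Fin 2) ℝ))
    (M : Type*) [AddCommGroup M] (φ : Additive Γ₂ →+ M) : A.op M φ = A'.op M φ := by
  choose e g c hc hα using hcov
  have hinj : Function.Injective e := by
    intro i i' hii
    apply hA i i' (g i * (g i')⁻¹) (c i * (c i')⁻¹) (mul_pos (hc i) (inv_pos.mpr (hc i')))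
    have h1 : ((A'.α (e i') : GL (Fin 2) ℝ) : Matrix (Fin 2) (Fin 2) ℝ) =
        (c i')⁻¹ • ((((mapGL ℝ ((g i' : Γ₂) : SL(2, ℤ)))⁻¹ : GL (Fin 2) ℝ) :
          Matrix (Fin 2) (Fin 2) ℝ) * ((A.α i' : GL (Fin 2) ℝ) : Matrix (Fin 2) (Fin 2) ℝ)) := by
      rw [hα i', Matrix.mul_smul, smul_smul, inv_mul_cancel₀ (hc i').ne', one_smul,
        ← Units.val_mul, inv_mul_cancel_left]
    rw [hα i, hii, Units.val_mul, h1, Matrix.mul_smul, smul_smul, ← Matrix.mul_assoc,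
      ← Units.val_mul, ← Units.val_mul]
    congr 3
    rw [Subgroup.coe_mul, Subgroup.coe_inv, map_mul, map_inv]
  have hbij : Function.Bijective e :=
    (Fintype.bijective_iff_injective_and_card e).mpr ⟨hinj, hcard⟩
  exact Corr.op_eq_of_equiv A A' hA' (Equiv.ofBijective e hbij)
    (fun i => ⟨g i, c i, hc i, hα i⟩) M φ

end Fermat.Agent.S41
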