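import Fermat.Agent.S41.D.Kills
import Fermat.Agent.S41.D.Cover
import Fermat.Agent.S41.Defs
import Fermat.Agent.GR.B.LatMain

/-!
# S41, module D, file Basic: the degeneracy maps between the levels `N` and `N q`
-/

set_option autoImplicit false

open CongruenceSubgroup Matrix.SpecialLinearGroup
open scoped MatrixGroups
open Fermat.Agent.Lib.EllPar (KillsEllPar ellParHoms)
open Fermat.Agent.GR.B

namespace Fermat.Agent.S41

/-- a correspondence acting on the spaces of homs killing elliptic and parabolic elements. -/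
noncomputable def Corr.opE {Γ₁ Γ₂ : Subgroup SL(2, ℤ)} (A : Corr Γ₁ Γ₂) (k : Type*) [Field k] :
    ellParHoms Γ₂ k →ₗ[k] ellParHoms Γ₁ k where
  toFun φ := ⟨A.op k φ, A.op_kills φ.2⟩
  map_add' φ ψ := Subtype.ext (by simp)
  map_smul' c φ := Subtype.ext (by simp [A.op_smul])

@[simp] theorem Corr.coe_opE {Γ₁ Γ₂ : Subgroup SL(2, ℤ)} (A : Corr Γ₁ Γ₂) (k : Type*) [Field k]
    (φ : ellParHoms Γ₂ k) : ((A.opE k φ : ellParHoms Γ₁ k) : Additive Γ₁ →+ k) = A.op k φ := rfl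

/-- a correspondence acting on the lattices. -/
noncomputable def Corr.opL {M₁ M₂ : ℕ} (A : Corr (Gamma0 M₁) (Gamma0 M₂)) :
    Lam M₂ →ₗ[ℤ] Lam M₁ where
  toFun x := ⟨A.op ℤ x, fun γ hγ => A.op_kills (φ := (x : Additive (Gamma0 M₂) →+ ℤ))
    (LatBasis_kills x) γ (Or.inr hγ)⟩
  map_add' φ ψ := Subtype.ext (by simp)
  map_smul' c φ := Subtype.ext (by simp [A.op_smul])

@[simp] theorem Corr.coe_opL {M₁ M₂ : ℕ} (A : Corr (Gamma0 M₁) (Gamma0 M₂)) (x : Lam M₂) :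
    ((A.opL x : Lam M₁) : Additive (Gamma0 M₁) →+ ℤ) = A.op ℤ x := rfl

theorem Corr.castHom_opL {M₁ M₂ : ℕ} (A : Corr (Gamma0 M₁) (Gamma0 M₂)) (B : Type*)
    [AddCommGroupWithOne B] (x : Lam M₂) :
    castHom M₁ B (A.opL x) = A.op B (castHom M₂ B x) :=
  (A.op_comp (Int.castAddHom B) (x : Additive (Gamma0 M₂) →+ ℤ)).symm

variable (N q : ℕ)

/-- `a^*`: restriction from `Γ₀(N)` to `Γ₀(N q)`. -/
def aUpC : Corr (Gamma0 (N * q)) (Gamma0 N) := resCorr (Gamma0_mul_le N q)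

theorem conjQ_rel [NeZero q] (γ : Gamma0 (N * q)) :
    ModularForm.heckeDiagMatrix q * mapGL ℝ (γ : SL(2, ℤ)) =
      mapGL ℝ (conjQ N q γ : SL(2, ℤ)) * ModularForm.heckeDiagMatrix q := by
  have hq : q ≠ 0 := NeZero.ne q
  have hq' : (q : ℤ) ≠ 0 := by exact_mod_cast hq
  obtain ⟨e, he⟩ := dvd_of_mem_Gamma0_mul γ
  have h1 : (γ : SL(2, ℤ)) 1 0 / (q : ℤ) = e := by rw [he, Int.mul_ediv_cancel_left _ hq']
  have h00 : (conjQ N q γ : SL(2, ℤ)) 0 0 = (γ : SL(2, ℤ)) 0 0 := rfl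
  have h01 : (conjQ N q γ : SL(2, ℤ)) 0 1 = q * (γ : SL(2, ℤ)) 0 1 := rfl
  have h10 : (conjQ N q γ : SL(2, ℤ)) 1 0 = e := h1
  have h11 : (conjQ N q γ : SL(2, ℤ)) 1 1 = (γ : SL(2, ℤ)) 1 1 := rfl
  apply Matrix.GeneralLinearGroup.ext
  intro i j
  rw [Matrix.GeneralLinearGroup.coe_mul, Matrix.GeneralLinearGroup.coe_mul,
    ModularForm.val_heckeDiagMatrix hq, mapGL_coe_matrix, mapGL_coe_matrix,
    Matrix.mul_apply, Matrix.mul_apply, Fin.sum_univ_two, Fin.sum_univ_two]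
  fin_cases i <;> fin_cases j <;>
    simp [h00, h01, h10, h11, he] <;> ring

/-- `b^*`: composition with `conjQ` (conjugation by `diag(q, 1)`). -/
noncomputable def bUpC [NeZero q] : Corr (Gamma0 (N * q)) (Gamma0 N) :=
  conjCorr (ModularForm.heckeDiagMatrix q) (ModularForm.det_heckeDiagMatrix_pos q) (conjQ N q)
    (conjQ_rel N q)

instance instFiniteIndexSub [NeZero N] [NeZero q] :
    ((Gamma0 (N * q)).subgroupOf (Gamma0 N)).FiniteIndex := by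
  have : NeZero (N * q) := ⟨Nat.mul_ne_zero (NeZero.ne N) (NeZero.ne q)⟩
  infer_instance

/-- `a_*`: transfer from `Γ₀(N q)` to `Γ₀(N)`. -/
noncomputable def aDnC [NeZero N] [NeZero q] : Corr (Gamma0 N) (Gamma0 (N * q)) :=
  coresCorr (Gamma0 N) (Gamma0 (N * q))

/-- an Atkin-Lehner matrix `w = (q x, y; N q, q)`, `q x - N y = 1`, with the automorphism of
`Γ₀(N q)` it induces. -/
structure AL where
  x : ℤ
  y : ℤ
  hxy : (q : ℤ) * x - N * y = 1
  w : GL (Fin 2) ℝ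
  hw : (w : Matrix (Fin 2) (Fin 2) ℝ) = !![(q : ℝ) * x, (y : ℝ); (N : ℝ) * q, (q : ℝ)]
  det_pos : 0 < (w.det : ℝ)
  c : Gamma0 (N * q) ≃* Gamma0 (N * q)
  hc : ∀ γ : Gamma0 (N * q), w * mapGL ℝ (γ : SL(2, ℤ)) = mapGL ℝ (c γ : SL(2, ℤ)) * w

variable {N q}

/-- the Atkin-Lehner involution as a correspondence. -/
def AL.corr (𝔴 : AL N q) : Corr (Gamma0 (N * q)) (Gamma0 (N * q)) :=
  conjCorr 𝔴.w 𝔴.det_pos 𝔴.c.toMonoidHom 𝔴.hc

/-- `b_* = a_* w`. -/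
noncomputable def AL.bDnC [NeZero N] [NeZero q] (𝔴 : AL N q) : Corr (Gamma0 N) (Gamma0 (N * q)) :=
  (aDnC N q).comp 𝔴.corr

theorem aUpC_op_apply {A : Type*} [AddCommGroup A] (φ : Additive (Gamma0 N) →+ A)
    (γ : Gamma0 (N * q)) :
    (aUpC N q).op A φ (Additive.ofMul γ) = φ (Additive.ofMul (inclQ N q γ)) :=
  resCorr_op_apply _ φ γ

theorem bUpC_op_apply [NeZero q] {A : Type*} [AddCommGroup A]
    (φ : Additive (Gamma0 N) →+ A) (γ : Gamma0 (N * q)) :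
    (bUpC N q).op A φ (Additive.ofMul γ) = φ (Additive.ofMul (conjQ N q γ)) :=
  conjCorr_op_apply _ _ _ _ φ γ

theorem AL.corr_op_apply (𝔴 : AL N q) {A : Type*} [AddCommGroup A]
    (ψ : Additive (Gamma0 (N * q)) →+ A) (γ : Gamma0 (N * q)) :
    𝔴.corr.op A ψ (Additive.ofMul γ) = ψ (Additive.ofMul (𝔴.c γ)) :=
  conjCorr_op_apply _ _ _ _ ψ γ

theorem AL.bDnC_op [NeZero N] [NeZero q] (𝔴 : AL N q) {A : Type*} [AddCommGroup A]
    (ψ : Additive (Gamma0 (N * q)) →+ A) :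
    𝔴.bDnC.op A ψ = (aDnC N q).op A (𝔴.corr.op A ψ) :=
  Corr.comp_op _ _ _ _

/-- `InKer` in terms of the degeneracy maps. -/
theorem inKer_iff [NeZero q] {A : Type*} [AddCommGroup A] (φ₁ φ₂ : Additive (Gamma0 N) →+ A) :
    InKer q φ₁ φ₂ ↔ (aUpC N q).op A φ₁ + (bUpC N q).op A φ₂ = 0 := by
  constructor
  · intro h
    refine AddMonoidHom.ext fun γ => ?_
    induction γ using Additive.rec with
    | ofMul γ =>
      rw [AddMonoidHom.add_apply, aUpC_op_apply, bUpC_op_apply]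
      exact h γ
  · intro h γ
    have := DFunLike.congr_fun h (Additive.ofMul γ)
    rw [AddMonoidHom.add_apply, aUpC_op_apply, bUpC_op_apply] at this
    exact this

end Fermat.Agent.S41
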