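import Fermat.Agent.S41.Corr
import Fermat.Agent.GR.B.Kills
import Fermat.Agent.Lib.EllPar

/-!
# S41, module D, file Kills: a correspondence preserves the homs killing elliptic and parabolic
elements (port of `GR/B/Kills.lean` from `Reps N` to `Corr Γ₁ Γ₂`)
-/

set_option autoImplicit false

open CongruenceSubgroup Matrix.SpecialLinearGroup
open scoped MatrixGroups
open Fermat.Agent.Lib.EllPar (KillsEllPar)

namespace Fermat.Agent.S41

variable {Γ₁ Γ₂ : Subgroup SL(2, ℤ)}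

theorem Kills_perm_pow (A : Corr Γ₁ Γ₂) (γ : Γ₁) (k : ℕ) : A.perm (γ ^ k) = (A.perm γ) ^ k := by
  induction k with
  | zero => simpa using A.perm_one
  | succ k ih =>
    ext i
    rw [pow_succ, A.perm_mul, ih, pow_succ', Equiv.Perm.mul_apply]

/-- cocycle relation for powers. -/
theorem Kills_coc_pow (A : Corr Γ₁ Γ₂) {M : Type*} [AddCommGroup M] (φ : Additive Γ₂ →+ M)
    (γ : Γ₁) (k : ℕ) (i : A.ι) :
    φ (Additive.ofMul (A.coc (γ ^ k) i)) =
      ∑ m ∈ Finset.range k, φ (Additive.ofMul (A.coc γ (((A.perm γ) ^ m) i))) := by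
  induction k with
  | zero => simp [A.coc_one]
  | succ k ih =>
    rw [pow_succ, A.coc_mul, ofMul_mul, map_add, ih, Finset.sum_range_succ, Kills_perm_pow]

/-- if `perm (γ') i = i` then `coc γ' i` is conjugate to `γ'` in `GL₂(ℝ)`. -/
theorem Kills_coc_conj (A : Corr Γ₁ Γ₂) (γ' : Γ₁) (i : A.ι) (hi : A.perm γ' i = i) :
    mapGL ℝ ((A.coc γ' i : Γ₂) : SL(2, ℤ)) =
      A.α i * mapGL ℝ (γ' : SL(2, ℤ)) * (A.α i)⁻¹ := by
  have h := A.rel γ' i
  rw [hi] at h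
  rw [h, mul_assoc, mul_inv_cancel, mul_one]

theorem Kills_trace_conj (g g' : SL(2, ℤ)) (a : GL (Fin 2) ℝ)
    (h : mapGL ℝ g' = a * mapGL ℝ g * a⁻¹) :
    (g' : Matrix (Fin 2) (Fin 2) ℤ).trace = (g : Matrix (Fin 2) (Fin 2) ℤ).trace := by
  have h1 : ((mapGL ℝ g' : GL (Fin 2) ℝ) : Matrix (Fin 2) (Fin 2) ℝ).trace =
      ((mapGL ℝ g : GL (Fin 2) ℝ) : Matrix (Fin 2) (Fin 2) ℝ).trace := by
    rw [h, Units.val_mul, Units.val_mul, Matrix.trace_mul_comm, ← mul_assoc, ← Units.val_mul,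
      inv_mul_cancel, Units.val_one, one_mul]
  rw [mapGL_coe_matrix, mapGL_coe_matrix] at h1
  simp only [Matrix.trace_fin_two, Matrix.SpecialLinearGroup.map_apply_coe, RingHom.mapMatrix_apply,
    Matrix.map_apply, algebraMap_int_eq, eq_intCast] at h1
  rw [Matrix.trace_fin_two, Matrix.trace_fin_two]
  exact_mod_cast h1

theorem Kills_finOrder_conj (g g' : SL(2, ℤ)) (a : GL (Fin 2) ℝ)
    (h : mapGL ℝ g' = a * mapGL ℝ g * a⁻¹) (hg : IsOfFinOrder g) : IsOfFinOrder g' := by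
  rw [isOfFinOrder_iff_pow_eq_one] at hg ⊢
  obtain ⟨n, hn, hgn⟩ := hg
  refine ⟨n, hn, ?_⟩
  apply mapGL_injective (S := ℝ)
  rw [map_pow, h, conj_pow, ← map_pow, hgn, map_one, mul_one, mul_inv_cancel]

theorem Kills_isEllPar_pow {g : SL(2, ℤ)} (hg : Fermat.Agent.Lib.EllPar.IsEllPar g) (k : ℕ) :
    Fermat.Agent.Lib.EllPar.IsEllPar (g ^ k) := by
  rcases hg with h | h
  · left; exact h.pow
  · right; exact Fermat.Agent.GR.B.trace_sq_pow _ h k

theorem Kills_isEllPar_conj {g g' : SL(2, ℤ)} (a : GL (Fin 2) ℝ)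
    (hc : mapGL ℝ g' = a * mapGL ℝ g * a⁻¹) (hg : Fermat.Agent.Lib.EllPar.IsEllPar g) :
    Fermat.Agent.Lib.EllPar.IsEllPar g' := by
  rcases hg with h | h
  · left; exact Kills_finOrder_conj _ _ a hc h
  · right; rw [Kills_trace_conj _ _ a hc]; exact h

theorem Corr.op_kills (A : Corr Γ₁ Γ₂) {M : Type*} [AddCommGroup M] {φ : Additive Γ₂ →+ M}
    (hφ : KillsEllPar Γ₂ φ) : KillsEllPar Γ₁ (A.op M φ) := by
  intro γ hγ
  rw [Corr.op_apply]
  apply Fermat.Agent.GR.B.sum_eq_zero_of_cycle_sums (A.perm γ)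
  intro i
  rw [← Kills_coc_pow A φ γ]
  apply hφ
  refine Kills_isEllPar_conj (g := ((γ ^ Function.minimalPeriod (A.perm γ) i : Γ₁) : SL(2, ℤ)))
    (A.α i) (Kills_coc_conj A _ i ?_) ?_
  · rw [Kills_perm_pow, ← Equiv.Perm.iterate_eq_pow]
    exact Function.isPeriodicPt_minimalPeriod _ i
  · rw [Subgroup.coe_pow]
    exact Kills_isEllPar_pow hγ _

end Fermat.Agent.S41
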