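import Fermat.Agent.S41.D.Basic

/-!
# S41, module D, file Tools: the standard representatives are reduced and cover; the index of
`Γ₀(N q)` in `Γ₀(N)`; existence of Atkin-Lehner data
-/

set_option autoImplicit false

open CongruenceSubgroup Matrix.SpecialLinearGroup
open scoped MatrixGroups
open Fermat.Agent.GR.B
open P2MW.S_ModularForm_heckeT_slash_eq_self_of_mem_Gamma0.ModularForm.HeckeSlashInvariance

namespace Fermat.Agent.S41

/-- a scalar relation between matrices of equal positive determinant is trivial. -/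
theorem scalar_eq_one_of_det {A B : Matrix (Fin 2) (Fin 2) ℝ} {c : ℝ} (hc : 0 < c)
    (h : A = c • B) (hdet : A.det = B.det) (hB : B.det ≠ 0) : c = 1 := by
  rw [h, Matrix.det_smul, Fintype.card_fin] at hdet
  have h1 : c ^ 2 = 1 := by
    have : (c ^ 2 - 1) * B.det = 0 := by linear_combination hdet
    rcases mul_eq_zero.1 this with h | h
    · linarith
    · exact absurd h hB
  nlinarith

/-- the entries of `g * β`. -/
theorem Tools_mul_val (g : SL(2, ℤ)) (β : GL (Fin 2) ℝ) {p q s t : ℝ}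
    (hβ : (β : Matrix (Fin 2) (Fin 2) ℝ) = !![p, q; s, t]) :
    ((mapGL ℝ g * β : GL (Fin 2) ℝ) : Matrix (Fin 2) (Fin 2) ℝ) =
      !![(g 0 0 : ℝ) * p + (g 0 1 : ℝ) * s, (g 0 0 : ℝ) * q + (g 0 1 : ℝ) * t;
        (g 1 0 : ℝ) * p + (g 1 1 : ℝ) * s, (g 1 0 : ℝ) * q + (g 1 1 : ℝ) * t] := by
  rw [Matrix.GeneralLinearGroup.coe_mul, hβ, mapGL_coe_matrix]
  ext i j
  rw [Matrix.mul_apply, Fin.sum_univ_two]
  fin_cases i <;> fin_cases j <;> simp

theorem Tools_det_mul (g : SL(2, ℤ)) (β : GL (Fin 2) ℝ) :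
    ((mapGL ℝ g * β : GL (Fin 2) ℝ) : Matrix (Fin 2) (Fin 2) ℝ).det =
      (β : Matrix (Fin 2) (Fin 2) ℝ).det := by
  rw [Matrix.GeneralLinearGroup.coe_mul, Matrix.det_mul, mapGL_coe_matrix,
    Matrix.SpecialLinearGroup.det_coe, one_mul]

theorem Tools_det_SL (g : SL(2, ℤ)) : g 0 0 * g 1 1 - g 0 1 * g 1 0 = 1 := by
  have := g.det_coe
  rwa [Matrix.det_fin_two] at this

/-- `(1 j; 0 r) = c g (1 j'; 0 r)` forces `j ≡ j'` modulo `r`. -/
theorem Tools_heckeMatrix_inj {r : ℕ} (hr : r ≠ 0) (j j' : ℕ) (g : SL(2, ℤ)) (c : ℝ) (hc : 0 < c)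
    (h : ((ModularForm.heckeMatrix r j : GL (Fin 2) ℝ) : Matrix (Fin 2) (Fin 2) ℝ) =
      c • ((mapGL ℝ g * ModularForm.heckeMatrix r j' : GL (Fin 2) ℝ) :
        Matrix (Fin 2) (Fin 2) ℝ)) : (r : ℤ) ∣ (j : ℤ) - j' := by
  have hr' : (r : ℝ) ≠ 0 := by exact_mod_cast hr
  have hd : ∀ i : ℕ, ((ModularForm.heckeMatrix r i : GL (Fin 2) ℝ) :
      Matrix (Fin 2) (Fin 2) ℝ).det = r := by
    intro i
    rw [ModularForm.val_heckeMatrix hr, Matrix.det_fin_two_of]
    ring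
  have hc1 : c = 1 := scalar_eq_one_of_det hc h (by rw [Tools_det_mul, hd, hd])
    (by rw [Tools_det_mul, hd]; exact hr')
  rw [hc1, one_smul, Tools_mul_val g _ (ModularForm.val_heckeMatrix hr j'),
    ModularForm.val_heckeMatrix hr j] at h
  have h00 := congrFun (congrFun h 0) 0
  have h01 := congrFun (congrFun h 0) 1
  simp at h00 h01
  refine ⟨g 0 1, ?_⟩
  have : ((j : ℤ) : ℝ) - ((j' : ℤ) : ℝ) = ((r : ℤ) : ℝ) * ((g 0 1 : ℤ) : ℝ) := by
    push_cast
    rw [h01, ← h00]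
    ring
  exact_mod_cast this

theorem Tools_val_inj {r : ℕ} [NeZero r] {x y : ZMod r} (h : (r : ℤ) ∣ (x.val : ℤ) - y.val) :
    x = y := by
  have h1 : (((x.val : ℤ) - y.val : ℤ) : ZMod r) = 0 :=
    (ZMod.intCast_zmod_eq_zero_iff_dvd _ _).2 h
  push_cast at h1
  rw [ZMod.natCast_zmod_val, ZMod.natCast_zmod_val] at h1
  exact sub_eq_zero.1 h1

theorem repsU_reduced {M : ℕ} (r : ℕ) [NeZero r] (hr : r ∣ M) :
    (repsU r hr : Reps M).toCorr.Reduced := by
  intro x y g c hc h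
  exact Tools_val_inj (Tools_heckeMatrix_inj (NeZero.ne r) _ _ (g : SL(2, ℤ)) c hc h)

theorem repsT_reduced {M : ℕ} (r : ℕ) [Fact r.Prime] (hr : ¬ r ∣ M) :
    (repsT r hr : Reps M).toCorr.Reduced := by
  have hr0 : r ≠ 0 := (Fact.out : r.Prime).ne_zero
  have hr2 : 2 ≤ r := (Fact.out : r.Prime).two_le
  have hr' : (r : ℝ) ≠ 0 := by exact_mod_cast hr0
  have hdM : ∀ i : ℕ, ((ModularForm.heckeMatrix r i : GL (Fin 2) ℝ) :
      Matrix (Fin 2) (Fin 2) ℝ).det = r := by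
    intro i
    rw [ModularForm.val_heckeMatrix hr0, Matrix.det_fin_two_of]
    ring
  have hdD : ((ModularForm.heckeDiagMatrix r : GL (Fin 2) ℝ) :
      Matrix (Fin 2) (Fin 2) ℝ).det = r := by
    rw [ModularForm.val_heckeDiagMatrix hr0, Matrix.det_fin_two_of]
    ring
  have hunit : ∀ a b : ℤ, (r : ℤ) * a = 1 + (r : ℤ) * b → False := by
    intro a b hab
    have h1 : (r : ℤ) ∣ 1 := ⟨a - b, by linear_combination -hab⟩
    have h2 := Int.le_of_dvd one_pos h1
    have : (2 : ℤ) ≤ r := by exact_mod_cast hr2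
    omega
  intro x y g c hc h
  change ((heckeRep r x : GL (Fin 2) ℝ) : Matrix (Fin 2) (Fin 2) ℝ) =
    c • ((mapGL ℝ (g : SL(2, ℤ)) * heckeRep r y : GL (Fin 2) ℝ) : Matrix (Fin 2) (Fin 2) ℝ) at h
  induction x using OnePoint.rec with
  | infty =>
    induction y using OnePoint.rec with
    | infty => rfl
    | coe j' =>
      exfalso
      rw [heckeRep_infty, heckeRep_coe] at h
      have hc1 : c = 1 := scalar_eq_one_of_det hc h (by rw [Tools_det_mul, hdD, hdM])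
        (by rw [Tools_det_mul, hdM]; exact hr')
      rw [hc1, one_smul, Tools_mul_val _ _ (ModularForm.val_heckeMatrix hr0 _),
        ModularForm.val_heckeDiagMatrix hr0] at h
      have h00 := congrFun (congrFun h 0) 0
      have h10 := congrFun (congrFun h 1) 0
      simp at h00 h10
      have e00 : (g : SL(2, ℤ)) 0 0 = r := by exact_mod_cast h00.symm
      have e10 : (g : SL(2, ℤ)) 1 0 = 0 := by exact_mod_cast h10.symm
      have hdet := Tools_det_SL (g : SL(2, ℤ))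
      rw [e00, e10] at hdet
      exact hunit ((g : SL(2, ℤ)) 1 1) 0 (by linear_combination hdet)
  | coe j =>
    induction y using OnePoint.rec with
    | infty =>
      exfalso
      rw [heckeRep_infty, heckeRep_coe] at h
      have hc1 : c = 1 := scalar_eq_one_of_det hc h (by rw [Tools_det_mul, hdD, hdM])
        (by rw [Tools_det_mul, hdD]; exact hr')
      rw [hc1, one_smul, Tools_mul_val _ _ (ModularForm.val_heckeDiagMatrix hr0),
        ModularForm.val_heckeMatrix hr0] at h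
      have h00 := congrFun (congrFun h 0) 0
      simp at h00
      have e00 : (1 : ℤ) = (g : SL(2, ℤ)) 0 0 * r := by exact_mod_cast h00
      exact hunit ((g : SL(2, ℤ)) 0 0) 0 (by linear_combination -e00)
    | coe j' =>
      rw [heckeRep_coe, heckeRep_coe] at h
      have : NeZero r := ⟨hr0⟩
      exact congrArg _ (Tools_val_inj (Tools_heckeMatrix_inj hr0 _ _ (g : SL(2, ℤ)) c hc h))

theorem coresCorr_reduced (Γ₁ Γ₂ : Subgroup SL(2, ℤ)) [(Γ₂.subgroupOf Γ₁).FiniteIndex] :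
    (coresCorr Γ₁ Γ₂).Reduced := by
  intro x y g c hc h
  revert x y
  intro (x : Γ₁ ⧸ Γ₂.subgroupOf Γ₁) (y : Γ₁ ⧸ Γ₂.subgroupOf Γ₁) h
  show x = y
  change ((mapGL ℝ ((x.out⁻¹ : Γ₁) : SL(2, ℤ)) : GL (Fin 2) ℝ) : Matrix (Fin 2) (Fin 2) ℝ) =
    c • ((mapGL ℝ (g : SL(2, ℤ)) * mapGL ℝ ((y.out⁻¹ : Γ₁) : SL(2, ℤ)) : GL (Fin 2) ℝ) :
      Matrix (Fin 2) (Fin 2) ℝ) at h
  have hd : ∀ γ : SL(2, ℤ), ((mapGL ℝ γ : GL (Fin 2) ℝ) : Matrix (Fin 2) (Fin 2) ℝ).det = 1 := by
    intro γ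
    have := Tools_det_mul γ 1
    rw [mul_one] at this
    rw [this]
    simp
  have hc1 : c = 1 := scalar_eq_one_of_det hc h (by rw [Tools_det_mul, hd, hd])
    (by rw [Tools_det_mul, hd]; exact one_ne_zero)
  rw [hc1, one_smul, ← map_mul] at h
  have h1 : ((x.out⁻¹ : Γ₁) : SL(2, ℤ)) = (g : SL(2, ℤ)) * ((y.out⁻¹ : Γ₁) : SL(2, ℤ)) :=
    mapGL_injective (Units.ext h)
  rw [← QuotientGroup.out_eq' x, ← QuotientGroup.out_eq' y, QuotientGroup.eq,
    Subgroup.mem_subgroupOf, Subgroup.coe_mul, h1]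
  simp

/-- every integral matrix of determinant `r` (prime, `r ∤ M`) with `M ∣ c` is
`g * heckeRep r x` with `g ∈ Γ₀(M)`. -/
theorem exists_heckeRep_of_det {M : ℕ} (r : ℕ) [Fact r.Prime] (hr : ¬ r ∣ M)
    (a b c d : ℤ) (hdet : a * d - b * c = r) (hc : (M : ℤ) ∣ c) :
    ∃ (g : Gamma0 M) (x : OnePoint (ZMod r)),
      (!![(a : ℝ), (b : ℝ); (c : ℝ), (d : ℝ)] : Matrix (Fin 2) (Fin 2) ℝ) =
        ((mapGL ℝ (g : SL(2, ℤ)) * heckeRep r x : GL (Fin 2) ℝ) : Matrix (Fin 2) (Fin 2) ℝ) := by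
  have hrp : r.Prime := Fact.out
  have hr0 : r ≠ 0 := hrp.ne_zero
  have hrZ : (r : ℤ) ≠ 0 := by exact_mod_cast hr0
  by_cases hac : (r : ℤ) ∣ a ∧ (r : ℤ) ∣ c
  · obtain ⟨⟨a', rfl⟩, ⟨c', rfl⟩⟩ := hac
    have hdet' : a' * d - b * c' = 1 := by
      apply mul_left_cancel₀ hrZ
      linear_combination hdet
    have hcop : IsCoprime (M : ℤ) (r : ℤ) := by
      rw [Nat.isCoprime_iff_coprime]
      exact ((Nat.Prime.coprime_iff_not_dvd hrp).2 hr).symm
    have hc' : (M : ℤ) ∣ c' := hcop.dvd_of_dvd_mul_left hc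
    let g : SL(2, ℤ) := ⟨!![a', b; c', d], by rw [Matrix.det_fin_two_of]; exact hdet'⟩
    refine ⟨⟨g, mem_Gamma0_of_dvd hc'⟩, OnePoint.infty, ?_⟩
    rw [heckeRep_infty, Tools_mul_val _ _ (ModularForm.val_heckeDiagMatrix hr0)]
    have g00 : g 0 0 = a' := rfl
    have g01 : g 0 1 = b := rfl
    have g10 : g 1 0 = c' := rfl
    have g11 : g 1 1 = d := rfl
    simp only [g00, g01, g10, g11]
    push_cast
    simp [mul_comm]
  · have hz : ∀ z : ℤ, ((z : ZMod r) = 0 ↔ (r : ℤ) ∣ z) :=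
      fun z => ZMod.intCast_zmod_eq_zero_iff_dvd z r
    have hdetr : (a : ZMod r) * d - b * c = 0 := by
      have := congrArg (Int.cast : ℤ → ZMod r) hdet
      push_cast at this
      rw [this]
      exact ZMod.natCast_self r
    obtain ⟨j, hj1, hj2⟩ : ∃ j : ZMod r, (b : ZMod r) = a * j ∧ (d : ZMod r) = c * j := by
      by_cases ha : (a : ZMod r) = 0
      · have hc0 : (c : ZMod r) ≠ 0 := fun h0 => hac ⟨(hz a).1 ha, (hz c).1 h0⟩
        refine ⟨d / c, ?_, by field_simp⟩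
        rw [ha] at hdetr ⊢
        have : (b : ZMod r) * c = 0 := by linear_combination -hdetr
        rcases mul_eq_zero.1 this with h | h
        · rw [h, zero_mul]
        · exact absurd h hc0
      · refine ⟨b / a, by field_simp, ?_⟩
        field_simp
        linear_combination hdetr
    have hb : (r : ℤ) ∣ b - a * (j.val : ℤ) := by
      rw [← hz]
      push_cast
      rw [ZMod.natCast_zmod_val, hj1, sub_self]
    have hd : (r : ℤ) ∣ d - c * (j.val : ℤ) := by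
      rw [← hz]
      push_cast
      rw [ZMod.natCast_zmod_val, hj2, sub_self]
    obtain ⟨b', hb'⟩ := hb
    obtain ⟨d', hd'⟩ := hd
    have hdet' : a * d' - b' * c = 1 := by
      apply mul_left_cancel₀ hrZ
      linear_combination hdet - a * hd' + c * hb'
    let g : SL(2, ℤ) := ⟨!![a, b'; c, d'], by rw [Matrix.det_fin_two_of]; exact hdet'⟩
    refine ⟨⟨g, mem_Gamma0_of_dvd hc⟩, (j : OnePoint (ZMod r)), ?_⟩
    rw [heckeRep_coe, Tools_mul_val _ _ (ModularForm.val_heckeMatrix hr0 _)]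
    have g00 : g 0 0 = a := rfl
    have g01 : g 0 1 = b' := rfl
    have g10 : g 1 0 = c := rfl
    have g11 : g 1 1 = d' := rfl
    simp only [g00, g01, g10, g11]
    have eb : (b : ℝ) = a * (j.val : ℝ) + b' * r := by
      have : b = a * (j.val : ℤ) + b' * r := by linear_combination hb'
      exact_mod_cast this
    have ed : (d : ℝ) = c * (j.val : ℝ) + d' * r := by
      have : d = c * (j.val : ℤ) + d' * r := by linear_combination hd'
      exact_mod_cast this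
    rw [eb, ed]
    simp

end Fermat.Agent.S41
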